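import Fermat.Agent.Cheb.Density
import Fermat.Agent.Frob.Basic
import Fermat.Prelude.Def_GaloisRep_Residual

set_option linter.unusedSectionVars false
set_option linter.unusedVariables false
set_option linter.style.haveILetI false

open Ideal Pointwise NumberField

namespace Fermat.Agent.Cheb

local notation "Qbar" => AlgebraicClosure ℚ
local notation "Γℚ" => (AlgebraicClosure ℚ ≃ₐ[ℚ] AlgebraicClosure ℚ)

open Fermat.Agent.Frob

variable (L : IntermediateField ℚ Qbar)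

/-- inclusion of the ring of integers in a valuation subring. -/
noncomputable def inclO (A : ValuationSubring Qbar) : 𝓞 L →+* A :=
  ((algebraMap L Qbar).comp (algebraMap (𝓞 L) L)).codRestrict A.toSubring
    (fun x => mem_of_isIntegral A ((x.isIntegral_coe).map (IsScalarTower.toAlgHom ℤ L Qbar)))

theorem coe_inclO (A : ValuationSubring Qbar) (x : 𝓞 L) :
    ((inclO L A x : A) : Qbar) = ((x : L) : Qbar) := rfl

/-- the prime of `L` below a place of `Qbar`. -/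
noncomputable def below (A : ValuationSubring Qbar) : Ideal (𝓞 L) :=
  (IsLocalRing.maximalIdeal A).comap (inclO L A)

instance (A : ValuationSubring Qbar) : (below L A).IsPrime := by
  unfold below; infer_instance

theorem mem_below_iff (A : ValuationSubring Qbar) (x : 𝓞 L) :
    x ∈ below L A ↔ ((x : L) : Qbar) ∈ A.nonunits := by
  rw [below, Ideal.mem_comap, ValuationSubring.mem_nonunits_iff_exists_mem_maximalIdeal]
  constructor
  · intro h
    exact ⟨(inclO L A x).2, h⟩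
  · rintro ⟨_, h⟩
    exact h

theorem natCast_mem_below {A : ValuationSubring Qbar} {ℓ : ℕ} (hA : A.LiesOverPrime ℓ) :
    ((ℓ : ℕ) : 𝓞 L) ∈ below L A := by
  rw [mem_below_iff]
  have : (((ℓ : 𝓞 L) : L) : Qbar) = (ℓ : Qbar) := by simp
  rw [this]
  exact hA

variable [IsGalois ℚ L]

noncomputable abbrev res : Γℚ →* Gal(L/ℚ) := AlgEquiv.restrictNormalHom L

theorem coe_res_apply (σ : Γℚ) (x : L) : ((res L σ x : L) : Qbar) = σ (x : Qbar) :=
  AlgEquiv.restrictNormal_commutes σ L x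

theorem coe_res_smul (σ : Γℚ) (x : 𝓞 L) : (((res L σ • x : 𝓞 L) : L) : Qbar) = σ ((x : L) : Qbar) :=
  AlgEquiv.restrictNormal_commutes σ L (x : L)

theorem below_smul (A : ValuationSubring Qbar) (σ : Γℚ) : below L (σ • A) = res L σ • below L A := by
  ext x
  rw [mem_below_iff, Ideal.mem_pointwise_smul_iff_inv_smul_mem, mem_below_iff,
    mem_nonunits_smul_iff, ← map_inv, coe_res_smul]

theorem res_surjective : Function.Surjective (res L) :=
  AlgEquiv.restrictNormalHom_surjective Qbar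

/-- a Frobenius at a place restricts to a Frobenius at the prime below. -/
theorem isArithFrobAt_res {A : ValuationSubring Qbar} {ℓ : ℕ} (hℓ : ℓ.Prime)
    (hA : A.LiesOverPrime ℓ) {φ : Γℚ} (hφ : A.IsFrobeniusAt φ ℓ) [NumberField L] :
    IsArithFrobAt ℤ (res L φ) (below L A) := by
  haveI := Fact.mk hℓ
  haveI := finite_quotient_of_natCast_mem hℓ.ne_zero (natCast_mem_below L hA)
  rw [isArithFrobAt_int_iff (natCast_mem_below L hA)]
  intro x
  rw [mem_below_iff]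
  have h1 := ((isFrobeniusAt_iff A φ ℓ).mp hφ).2 ((x : L) : Qbar) (inclO L A x).2
  have h2 : (((res L φ • x - x ^ ℓ : 𝓞 L) : L) : Qbar) = φ ((x : L) : Qbar) - ((x : L) : Qbar) ^ ℓ := by
    rw [← coe_res_smul L φ x]
    push_cast
    rfl
  rw [h2]
  exact h1

/-- inertia at a place restricts to inertia at the prime below. -/
theorem res_mem_inertia {A : ValuationSubring Qbar} {τ : Γℚ} (hτ : τ ∈ A.inertiaSubgroupIn ℚ) :
    res L τ ∈ (below L A).inertia Gal(L/ℚ) := by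
  intro x
  change res L τ • x - x ∈ below L A
  rw [mem_below_iff]
  have h1 := ((mem_inertiaSubgroupIn_iff A τ).mp hτ).2 ((x : L) : Qbar) (inclO L A x).2
  have h2 : (((res L τ • x - x : 𝓞 L) : L) : Qbar) = τ ((x : L) : Qbar) - ((x : L) : Qbar) := by
    rw [← coe_res_smul L τ x]
    push_cast
    rfl
  rw [h2]
  exact h1

/-- Given a prime `P ∣ ℓ` of `L`, there is a place of `Qbar` above it. -/
theorem exists_place_above {ℓ : ℕ} (hℓ : ℓ.Prime) [NumberField L] (P : Ideal (𝓞 L)) [P.IsPrime]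
    (hP : (ℓ : 𝓞 L) ∈ P) : ∃ A : ValuationSubring Qbar, A.LiesOverPrime ℓ ∧ below L A = P := by
  haveI := Fact.mk hℓ
  obtain ⟨A, hA⟩ := exists_liesOverPrime Qbar hℓ
  obtain ⟨g, hg⟩ := Algebra.IsInvariant.exists_smul_of_under_eq ℤ (𝓞 L) Gal(L/ℚ) (below L A) P
    (by rw [under_int (natCast_mem_below L hA), under_int hP])
  obtain ⟨σ, rfl⟩ := res_surjective L g
  exact ⟨σ • A, liesOverPrime_smul hA σ, by rw [below_smul, hg]⟩

/-- **Frobenius density theorem** for places of `Qbar`, Galois version: for `L/ℚ` finite Galois,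
`σ ∈ Gal(Qbar/ℚ)` and any bound `N`, there are a prime `ℓ > N`, a place `A` above `ℓ` whose
inertia acts trivially on `L`, and a Frobenius `φ` at `A` such that `φ` and `σ` generate the same
subgroup of `Gal(L/ℚ)`. -/
theorem exists_frobenius_galois [NumberField L] (σ : Γℚ) (N : ℕ) :
    ∃ ℓ : ℕ, ℓ.Prime ∧ N < ℓ ∧
      (∀ A : ValuationSubring Qbar, A.LiesOverPrime ℓ →
        ∀ τ ∈ A.inertiaSubgroupIn ℚ, res L τ = 1) ∧
      ∃ A : ValuationSubring Qbar, A.LiesOverPrime ℓ ∧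
        ∃ φ : Γℚ, A.IsFrobeniusAt φ ℓ ∧
          Subgroup.zpowers (res L φ) = Subgroup.zpowers (res L σ) := by
  obtain ⟨ℓ, hℓ, hN, hI, P, hP, hPℓ, F, hF, hz⟩ := exists_prime_frob L (res L σ) N
  haveI := Fact.mk hℓ
  refine ⟨ℓ, hℓ, hN, fun A hA τ hτ => ?_, ?_⟩
  · have h1 := res_mem_inertia L hτ
    rw [hI _ inferInstance (natCast_mem_below L hA), Subgroup.mem_bot] at h1
    exact h1
  · obtain ⟨A, hA, rfl⟩ := exists_place_above L hℓ P hPℓ
    obtain ⟨φ, hφ⟩ := exists_isFrobeniusAt A hℓ hA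
    refine ⟨A, hA, φ, hφ, ?_⟩
    have h1 := IsArithFrobAt.mul_inv_mem_inertia (isArithFrobAt_res L hℓ hA hφ) hF
    rw [hI _ hP hPℓ, Subgroup.mem_bot, mul_inv_eq_one] at h1
    rw [h1, hz]

variable {L} in
omit [IsGalois ℚ L] in
/-- **Frobenius density theorem** for places of `Qbar`. For `F/ℚ` finite, `σ ∈ Gal(Qbar/ℚ)`, `S` a
finite set: there are a prime `ℓ ∉ S`, such that inertia at every place above `ℓ` fixes `F`, and a
place `A` above `ℓ` and a Frobenius `φ` at `A` with `σ = φ ^ k` on `F` and `φ = σ ^ j` on `F`. -/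
theorem exists_frobenius (F : IntermediateField ℚ Qbar) [FiniteDimensional ℚ F] (σ : Γℚ)
    (S : Finset ℕ) :
    ∃ ℓ : ℕ, ℓ.Prime ∧ ℓ ∉ S ∧
      (∀ A : ValuationSubring Qbar, A.LiesOverPrime ℓ →
        ∀ τ ∈ A.inertiaSubgroupIn ℚ, ∀ x ∈ F, τ x = x) ∧
      ∃ A : ValuationSubring Qbar, A.LiesOverPrime ℓ ∧
        ∃ φ : Γℚ, A.IsFrobeniusAt φ ℓ ∧
          (∃ k : ℕ, ∀ x ∈ F, σ x = (φ ^ k) x) ∧ (∃ j : ℕ, ∀ x ∈ F, φ x = (σ ^ j) x) := by
  let L : IntermediateField ℚ Qbar := IntermediateField.normalClosure ℚ F Qbar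
  haveI : FiniteDimensional ℚ L := normalClosure.is_finiteDimensional ℚ F Qbar
  haveI : Normal ℚ L := normalClosure.normal ℚ F Qbar
  haveI : IsGalois ℚ L := {}
  haveI : NumberField L := { to_finiteDimensional := inferInstance }
  have hFL : F ≤ L := F.le_normalClosure
  obtain ⟨ℓ, hℓ, hN, hI, A, hA, φ, hφ, hz⟩ := exists_frobenius_galois L σ (S.sup id)
  have key : ∀ τ τ' : Γℚ, res L τ = res L τ' → ∀ x ∈ F, τ x = τ' x := by
    intro τ τ' h x hx
    have h1 := coe_res_apply L τ ⟨x, hFL hx⟩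
    have h2 := coe_res_apply L τ' ⟨x, hFL hx⟩
    rw [← h1, ← h2, h]
  refine ⟨ℓ, hℓ, fun hS => ?_, fun A' hA' τ hτ x hx => ?_, A, hA, φ, hφ, ?_, ?_⟩
  · have : ℓ ≤ S.sup id := Finset.le_sup (f := id) hS
    omega
  · have h1 := hI A' hA' τ hτ
    exact key τ 1 (by rw [h1, map_one]) x hx
  · have h1 : res L σ ∈ Subgroup.zpowers (res L φ) := hz ▸ Subgroup.mem_zpowers _
    rw [← mem_powers_iff_mem_zpowers] at h1
    obtain ⟨k, hk⟩ := h1
    refine ⟨k, key σ (φ ^ k) ?_⟩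
    rw [map_pow]
    exact hk.symm
  · have h1 : res L φ ∈ Subgroup.zpowers (res L σ) := hz ▸ Subgroup.mem_zpowers _
    rw [← mem_powers_iff_mem_zpowers] at h1
    obtain ⟨k, hk⟩ := h1
    refine ⟨k, key φ (σ ^ k) ?_⟩
    rw [map_pow]
    exact hk.symm

/-- Frobenius density for homomorphisms factoring through a finite level. -/
theorem exists_frobenius_of_factors {M : Type} [Monoid M] (ρ : Γℚ →* M)
    (h : GaloisFactorsThroughFiniteLevel ρ) (σ : Γℚ) (S : Finset ℕ) :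
    ∃ ℓ : ℕ, ℓ.Prime ∧ ℓ ∉ S ∧
      (∀ A : ValuationSubring Qbar, A.LiesOverPrime ℓ →
        ∀ τ ∈ A.inertiaSubgroupIn ℚ, ρ τ = 1) ∧
      ∃ A : ValuationSubring Qbar, A.LiesOverPrime ℓ ∧
        ∃ φ : Γℚ, A.IsFrobeniusAt φ ℓ ∧
          (∃ k : ℕ, ρ σ = ρ φ ^ k) ∧ (∃ j : ℕ, ρ φ = ρ σ ^ j) := by
  obtain ⟨F, hF, h⟩ := h
  haveI := hF
  obtain ⟨ℓ, hℓ, hN, hI, A, hA, φ, hφ, ⟨k, hk⟩, ⟨j, hj⟩⟩ := exists_frobenius F σ S
  have key : ∀ τ τ' : Γℚ, (∀ x ∈ F, τ x = τ' x) → ρ τ = ρ τ' := by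
    intro τ τ' h'
    have h1 : ρ (τ'⁻¹ * τ) = 1 := h _ fun x hx => by
      change τ'⁻¹ (τ x) = x
      rw [h' x hx]
      exact inv_smul_smul τ' x
    have h2 : τ = τ' * (τ'⁻¹ * τ) := by group
    rw [h2, map_mul, h1, mul_one]
  exact ⟨ℓ, hℓ, hN, fun A' hA' τ hτ => by rw [key τ 1 (hI A' hA' τ hτ), map_one], A, hA, φ, hφ,
    ⟨k, by rw [key σ (φ ^ k) hk, map_pow]⟩, ⟨j, by rw [key φ (σ ^ j) hj, map_pow]⟩⟩

end Fermat.Agent.Cheb
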