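import Mathlib

set_option linter.unusedSectionVars false
set_option linter.unusedVariables false
set_option linter.style.haveILetI false

open Ideal Pointwise

namespace Fermat.Agent.Cheb

/-- A field of characteristic `p` in which `x ^ p = x` for all `x` has exactly `p` elements. -/
theorem card_eq_of_forall_pow_eq {κ : Type*} [Field κ] {p : ℕ} [Fact p.Prime] [CharP κ p]
    (h : ∀ x : κ, x ^ p = x) : Nat.card κ = p := by
  have : (⊥ : Subfield κ) = ⊤ := by
    ext x
    simp [Subfield.mem_bot_iff_pow_eq_self (F := κ) (p := p), h x]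
  rw [← Subfield.card_bot κ p, this]
  exact (Nat.card_congr Subfield.topEquiv.toEquiv).symm

section Basic

variable {B : Type*} [CommRing B] {p : ℕ} [hpp : Fact p.Prime] {P : Ideal B} [P.IsPrime]

theorem under_int (hp : (p : B) ∈ P) : P.under ℤ = Ideal.span {(p : ℤ)} := by
  have hmax : (Ideal.span {(p : ℤ)}).IsMaximal := Int.ideal_span_isMaximal_of_prime p
  symm
  apply hmax.eq_of_le
  · exact Ideal.IsPrime.ne_top inferInstance
  · rw [Ideal.span_le, Set.singleton_subset_iff]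
    simpa [Ideal.under] using hp

theorem card_quot_under_int (hp : (p : B) ∈ P) : Nat.card (ℤ ⧸ P.under ℤ) = p := by
  rw [under_int hp, Nat.card_congr (Int.quotientSpanNatEquivZMod p).toEquiv, Nat.card_zmod]

theorem charP_quot (hp : (p : B) ∈ P) : CharP (B ⧸ P) p := by
  rw [CharP.charP_iff_prime_eq_zero hpp.out, ← map_natCast (Ideal.Quotient.mk P)]
  exact Ideal.Quotient.eq_zero_iff_mem.mpr hp

end Basic

section Galois

variable {A B : Type*} [CommRing A] [CommRing B] [Algebra A B]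
variable {G : Type*} [Group G] [Finite G] [MulSemiringAction G B] [IsGaloisGroup G ℤ B]
variable {H : Subgroup G} [IsGaloisGroup H A B]
variable {p : ℕ} [hpp : Fact p.Prime] {P : Ideal B} [P.IsPrime] [Finite (B ⧸ P)]

theorem isArithFrobAt_int_iff (hp : (p : B) ∈ P) (F : G) :
    IsArithFrobAt ℤ F P ↔ ∀ x : B, F • x - x ^ p ∈ P := by
  unfold IsArithFrobAt AlgHom.IsArithFrobAt
  rw [card_quot_under_int hp]
  rfl

omit [Finite G] hpp [P.IsPrime] [IsGaloisGroup G ℤ B] [Finite (B ⧸ P)] in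
theorem pow_smul_sub_mem {F : G}
    (hF : ∀ x : B, F • x - x ^ p ∈ P) (n : ℕ) (x : B) : F ^ n • x - x ^ (p ^ n) ∈ P := by
  induction n generalizing x with
  | zero => simp
  | succ n ih =>
    have h1 := ih (F • x)
    rw [pow_succ, mul_smul]
    have h2 : (F • x) ^ p ^ n - (x ^ p) ^ p ^ n ∈ P := by
      obtain ⟨c, hc⟩ := sub_dvd_pow_sub_pow (F • x) (x ^ p) (p ^ n)
      rw [hc]
      exact P.mul_mem_right _ (hF x)
    have h3 : F ^ n • F • x - x ^ p ^ (n + 1) =
        (F ^ n • F • x - (F • x) ^ p ^ n) + ((F • x) ^ p ^ n - (x ^ p) ^ p ^ n) := by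
      rw [← pow_mul, ← pow_succ']
      ring
    rw [h3]
    exact P.add_mem h1 h2

/-- With trivial inertia, the decomposition group at `P` is generated by Frobenius. -/
theorem stabilizer_eq_zpowers (hp : (p : B) ∈ P) (hI : P.inertia G = ⊥) {F : G}
    (hF : IsArithFrobAt ℤ F P) : MulAction.stabilizer G P = Subgroup.zpowers F := by
  apply le_antisymm
  · intro g hg
    have hmax : P.IsMaximal := Ideal.Quotient.maximal_of_isField _ (Finite.isField_of_domain (B ⧸ P))
    letI : Field (B ⧸ P) := Ideal.Quotient.field P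
    haveI : CharP (B ⧸ P) p := charP_quot hp
    letI : Algebra (ZMod p) (B ⧸ P) := ZMod.algebra _ p
    let φ : (B ⧸ P) ≃+* (B ⧸ P) := (Ideal.Quotient.stabilizerHom P (P.under ℤ) G ⟨g, hg⟩).toRingEquiv
    have hφ : ∀ x : B, φ (Ideal.Quotient.mk P x) = Ideal.Quotient.mk P (g • x) := fun x => rfl
    let ψ : (B ⧸ P) ≃ₐ[ZMod p] (B ⧸ P) := AlgEquiv.ofRingEquiv (f := φ) (fun x => by
      exact RingHom.congr_fun (Subsingleton.elim ((φ : (B ⧸ P) →+* (B ⧸ P)).comp (algebraMap (ZMod p) (B ⧸ P)))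
        (algebraMap (ZMod p) (B ⧸ P))) x)
    obtain ⟨n, hn⟩ := (FiniteField.bijective_frobeniusAlgEquivOfAlgebraic_pow (ZMod p) (B ⧸ P)).2 ψ
    have hgx : ∀ x : B, g • x - x ^ (p ^ n.1) ∈ P := by
      intro x
      rw [← Ideal.Quotient.eq, ← hφ x]
      have h1 : ψ (Ideal.Quotient.mk P x) = φ (Ideal.Quotient.mk P x) := rfl
      rw [← h1, ← hn, map_pow]
      simp only [AlgEquiv.coe_pow, FiniteField.coe_frobeniusAlgEquivOfAlgebraic_iterate, ZMod.card]
    have hF' := (isArithFrobAt_int_iff hp F).mp hF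
    have hmem : g * (F ^ n.1)⁻¹ ∈ P.inertia G := by
      intro x
      have h1 := hgx ((F ^ n.1)⁻¹ • x)
      have h2 := pow_smul_sub_mem hF' n.1 ((F ^ n.1)⁻¹ • x)
      rw [smul_inv_smul] at h2
      have h3 : (g * (F ^ n.1)⁻¹) • x - x = (g • (F ^ n.1)⁻¹ • x - ((F ^ n.1)⁻¹ • x) ^ p ^ n.1)
        - (x - ((F ^ n.1)⁻¹ • x) ^ p ^ n.1) := by rw [mul_smul]; ring
      exact h3 ▸ P.sub_mem h1 h2
    rw [hI, Subgroup.mem_bot] at hmem
    rw [mul_inv_eq_one.mp hmem]
    exact Subgroup.npow_mem_zpowers F n.1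
  · rw [Subgroup.zpowers_le]
    exact hF.mem_stabilizer

theorem frob_mem_iff (hp : (p : B) ∈ P) (hI : P.inertia G = ⊥) {F : G}
    (hF : IsArithFrobAt ℤ F P) : F ∈ H ↔ Nat.card (A ⧸ P.under A) = p := by
  have hF' := (isArithFrobAt_int_iff hp F).mp hF
  constructor
  · intro hFH
    haveI hfin : Finite (A ⧸ P.under A) := .of_injective _ Ideal.algebraMap_quotient_injective
    have hmax : (P.under A).IsMaximal :=
      Ideal.Quotient.maximal_of_isField _ (Finite.isField_of_domain (A ⧸ P.under A))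
    letI : Field (A ⧸ P.under A) := Ideal.Quotient.field _
    have hpA : (p : A) ∈ P.under A := by simpa [Ideal.under] using hp
    haveI : CharP (A ⧸ P.under A) p := charP_quot hpA
    apply card_eq_of_forall_pow_eq
    intro x
    obtain ⟨a, rfl⟩ := Ideal.Quotient.mk_surjective x
    rw [← map_pow, Ideal.Quotient.eq]
    have h1 := hF' (algebraMap A B a)
    have h2 : F • algebraMap A B a = algebraMap A B a := Subgroup.smul_algebraMap B hFH a
    rw [h2] at h1
    rw [Ideal.under, Ideal.mem_comap, map_sub, map_pow, ← neg_sub]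
    exact P.neg_mem h1
  · intro hcard
    obtain ⟨h, hh⟩ := IsArithFrobAt.exists_of_isInvariant A H P
    have hh' : ∀ x : B, (h : G) • x - x ^ p ∈ P := by
      intro x
      have := hh x
      rw [hcard] at this
      exact this
    have := IsArithFrobAt.mul_inv_mem_inertia hF ((isArithFrobAt_int_iff hp (h : G)).mpr hh')
    rw [hI, Subgroup.mem_bot] at this
    rw [mul_inv_eq_one.mp this]
    exact h.2

end Galois

section Galois

variable {A B : Type*} [CommRing A] [CommRing B] [Algebra A B]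
variable {G : Type*} [Group G] [Finite G] [MulSemiringAction G B] [IsGaloisGroup G ℤ B]
variable {H : Subgroup G} [IsGaloisGroup H A B]

theorem card_stabilizer_of_le {P : Ideal B} (h : MulAction.stabilizer G P ≤ H) :
    Nat.card (MulAction.stabilizer H P) = Nat.card (MulAction.stabilizer G P) := by
  refine Nat.card_congr ⟨fun x => ⟨(x.1 : G), x.2⟩, fun x => ⟨⟨x.1, h x.2⟩, x.2⟩, fun x => rfl, fun x => rfl⟩

theorem sum_card_stabilizer [FaithfulSMul A B] {I : Ideal A} [I.IsPrime] (X : Finset (Ideal B))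
    (hX : ∀ P : Ideal B, P ∈ X ↔ P.IsPrime ∧ P.under A = I) :
    ∑ P ∈ X, Nat.card (MulAction.stabilizer H P) = Nat.card H := by
  classical
  haveI : Algebra.IsIntegral A B := Algebra.IsInvariant.isIntegral A B H
  obtain ⟨P0, -, hP0, hP0I⟩ := Ideal.exists_ideal_over_prime_of_isIntegral (S := B) I ⊥ (by
    intro x hx
    rw [Ideal.mem_comap, Ideal.mem_bot] at hx
    rw [(FaithfulSMul.algebraMap_eq_zero_iff A B).mp hx]
    exact I.zero_mem)
  have hXo : (X : Set (Ideal B)) = MulAction.orbit H P0 := by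
    ext P
    rw [Finset.mem_coe, hX, MulAction.mem_orbit_iff]
    constructor
    · rintro ⟨h1, h2⟩
      obtain ⟨h, hh⟩ := Algebra.IsInvariant.exists_smul_of_under_eq A B H P0 P (hP0I.trans h2.symm)
      exact ⟨h, hh.symm⟩
    · rintro ⟨h, rfl⟩
      refine ⟨(Ideal.IsPrime.smul_iff h).mpr hP0, ?_⟩
      exact (Ideal.under_smul A P0 h).trans hP0I
  have hcard : ∀ P ∈ X, Nat.card (MulAction.stabilizer H P) = Nat.card (MulAction.stabilizer H P0) := by
    intro P hP
    have hP' : P ∈ MulAction.orbit H P0 := by rw [← hXo]; exact hP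
    exact Nat.card_congr (MulAction.stabilizerEquivStabilizerOfOrbitRel hP').toEquiv
  rw [Finset.sum_congr rfl hcard, Finset.sum_const, smul_eq_mul]
  have h1 : X.card = Nat.card (MulAction.orbit H P0) := by
    rw [← hXo]
    simp
  rw [h1, ← Nat.card_prod]
  exact Nat.card_congr (MulAction.orbitProdStabilizerEquivGroup H P0)

end Galois

section NumberField

open NumberField

variable {K L : Type*} [Field L] [NumberField L] 

instance smulDistribClass_subgroup (H : Subgroup Gal(L/ℚ)) : SMulDistribClass H (𝓞 L) L :=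
  ⟨fun h x y => smul_distrib_smul (h : Gal(L/ℚ)) x y⟩

theorem isGaloisGroup_ringOfIntegers (H : Subgroup Gal(L/ℚ)) (K : Type*) [Field K] [NumberField K]
    [Algebra K L] [IsGaloisGroup H K L] : IsGaloisGroup H (𝓞 K) (𝓞 L) :=
  IsGaloisGroup.of_isFractionRing H (𝓞 K) (𝓞 L) K L

theorem finite_quotient_of_natCast_mem {L : Type*} [Field L] [NumberField L] {p : ℕ} (hp : p ≠ 0)
    {P : Ideal (𝓞 L)} (h : (p : 𝓞 L) ∈ P) : Finite (𝓞 L ⧸ P) := by
  apply Ideal.finiteQuotientOfFreeOfNeBot P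
  rintro rfl
  rw [Ideal.mem_bot] at h
  exact hp (by exact_mod_cast h)

theorem dvd_absNorm_of_natCast_mem {L : Type*} [Field L] [NumberField L] {p : ℕ}
    [hpp : Fact p.Prime] {P : Ideal (𝓞 L)} [hP : P.IsPrime] (h : (p : 𝓞 L) ∈ P) :
    p ∣ absNorm P := by
  have h1 : absNorm P ∣ absNorm (Ideal.span {(p : 𝓞 L)}) :=
    Ideal.absNorm_dvd_absNorm_of_le (by rwa [Ideal.span_singleton_le_iff_mem])
  have h2 : absNorm (Ideal.span {(p : 𝓞 L)}) = p ^ Module.finrank ℤ (𝓞 L) := by
    rw [Ideal.absNorm_span_singleton]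
    have : (p : 𝓞 L) = algebraMap ℤ (𝓞 L) (p : ℤ) := by simp
    rw [this, Algebra.norm_algebraMap]
    simp [Int.natAbs_pow]
  rw [h2, Nat.dvd_prime_pow hpp.out] at h1
  obtain ⟨k, -, hk⟩ := h1
  rcases k with _ | k
  · rw [pow_zero, Ideal.absNorm_eq_one_iff] at hk
    exact absurd hk hP.ne_top
  · rw [hk]
    exact dvd_pow_self p (Nat.succ_ne_zero k)

/-- All but finitely many primes have trivial inertia. -/
theorem exists_good (L : Type*) [Field L] [NumberField L] [IsGalois ℚ L] :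
    ∃ D : ℕ, D ≠ 0 ∧ ∀ p : ℕ, p.Prime → ¬ p ∣ D → ∀ P : Ideal (𝓞 L), P.IsPrime → (p : 𝓞 L) ∈ P →
      P.inertia Gal(L/ℚ) = ⊥ := by
  classical
  have hfaith : FaithfulSMul Gal(L/ℚ) (𝓞 L) := IsGaloisGroup.faithful ℤ
  have hex : ∀ g : Gal(L/ℚ), ∃ x : 𝓞 L, g ≠ 1 → g • x ≠ x := by
    intro g
    by_cases hg : g = 1
    · exact ⟨0, fun h => absurd hg h⟩
    · by_contra hcon
      push Not at hcon
      apply hg
      apply hfaith.eq_of_smul_eq_smul
      intro x
      rw [one_smul]
      exact (hcon x).2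
  choose x hx using hex
  refine ⟨∏ g : Gal(L/ℚ) with g ≠ 1, absNorm (Ideal.span {g • x g - x g}), ?_, ?_⟩
  · rw [Finset.prod_ne_zero_iff]
    intro g hg
    rw [Finset.mem_filter] at hg
    rw [Ne, Ideal.absNorm_eq_zero_iff, Ideal.span_singleton_eq_bot, sub_eq_zero]
    exact hx g hg.2
  · intro p hp hpD P hP hpP
    haveI := Fact.mk hp
    rw [eq_bot_iff]
    intro g hg
    rw [Subgroup.mem_bot]
    by_contra hg1
    apply hpD
    have h1 : g • x g - x g ∈ P := hg (x g)
    have h2 : absNorm P ∣ absNorm (Ideal.span {g • x g - x g}) :=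
      Ideal.absNorm_dvd_absNorm_of_le (by rwa [Ideal.span_singleton_le_iff_mem])
    exact ((dvd_absNorm_of_natCast_mem hpP).trans h2).trans
      (Finset.dvd_prod_of_mem (fun g => absNorm (Ideal.span {g • x g - x g})) (by simp [hg1]))

/-- **Key identity**: counting degree one primes of the fixed field of `H`. -/
theorem card_mul_card_ideals [IsGalois ℚ L] (H : Subgroup Gal(L/ℚ)) [Field K] [NumberField K]
    [Algebra K L] [IsGaloisGroup H K L] (p : ℕ) [hpp : Fact p.Prime] (X : Finset (Ideal (𝓞 L)))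
    (hX : ∀ P, P ∈ X ↔ P.IsPrime ∧ (p : 𝓞 L) ∈ P)
    (hI : ∀ P ∈ X, P.inertia Gal(L/ℚ) = ⊥) (frob : Ideal (𝓞 L) → Gal(L/ℚ))
    (hfrob : ∀ P ∈ X, IsArithFrobAt ℤ (frob P) P) [DecidablePred (· ∈ H)] :
    Nat.card H * Nat.card {I : Ideal (𝓞 K) // absNorm I = p} =
      ∑ P ∈ X, if frob P ∈ H then Nat.card (MulAction.stabilizer Gal(L/ℚ) P) else 0 := by
  classical
  haveI := isGaloisGroup_ringOfIntegers H K
  let Y : Finset (Ideal (𝓞 K)) := (Ideal.finite_setOfPred_absNorm_eq (S := 𝓞 K) p).toFinset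
  have hY : ∀ I, I ∈ Y ↔ absNorm I = p := by intro I; simp [Y]
  have hYc : Nat.card {I : Ideal (𝓞 K) // absNorm I = p} = Y.card := by
    exact Nat.subtype_card Y hY
  have hfin : ∀ P ∈ X, Finite (𝓞 L ⧸ P) := by
    intro P hP
    exact finite_quotient_of_natCast_mem hpp.out.ne_zero ((hX P).mp hP).2
  rw [hYc, ← Finset.sum_filter]
  have h1 : ∀ P ∈ X.filter (fun P => frob P ∈ H), Nat.card (MulAction.stabilizer Gal(L/ℚ) P) =
      Nat.card (MulAction.stabilizer H P) := by
    intro P hP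
    rw [Finset.mem_filter] at hP
    haveI := ((hX P).mp hP.1).1
    haveI := hfin P hP.1
    symm
    apply card_stabilizer_of_le
    rw [stabilizer_eq_zpowers ((hX P).mp hP.1).2 (hI P hP.1) (hfrob P hP.1), Subgroup.zpowers_le]
    exact hP.2
  rw [Finset.sum_congr rfl h1]
  have h2 : ∀ P ∈ X, (frob P ∈ H ↔ P.under (𝓞 K) ∈ Y) := by
    intro P hP
    haveI := ((hX P).mp hP).1
    haveI := hfin P hP
    rw [frob_mem_iff (A := 𝓞 K) (H := H) ((hX P).mp hP).2 (hI P hP) (hfrob P hP), hY, 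
      Ideal.absNorm_apply, Submodule.cardQuot_apply]
  have h3 : ∀ P ∈ X.filter (fun P => frob P ∈ H), P.under (𝓞 K) ∈ Y := by
    intro P hP
    rw [Finset.mem_filter] at hP
    exact (h2 P hP.1).mp hP.2
  rw [← Finset.sum_fiberwise_of_maps_to h3]
  have h4 : ∀ I ∈ Y, ∑ P ∈ X.filter (fun P => frob P ∈ H) with P.under (𝓞 K) = I,
      Nat.card (MulAction.stabilizer H P) = Nat.card H := by
    intro I hIY
    haveI : I.IsPrime := by
      apply Ideal.isPrime_of_irreducible_absNorm
      rw [(hY I).mp hIY]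
      exact hpp.out
    apply sum_card_stabilizer (A := 𝓞 K) (I := I)
    intro P
    rw [Finset.mem_filter, Finset.mem_filter]
    constructor
    · rintro ⟨⟨h5, h6⟩, h7⟩
      exact ⟨((hX P).mp h5).1, h7⟩
    · rintro ⟨h5, h6⟩
      have hPX : P ∈ X := by
        rw [hX]
        refine ⟨h5, ?_⟩
        have : (p : 𝓞 K) ∈ I := by
          rw [← (hY I).mp hIY]
          exact Ideal.absNorm_mem I
        rw [← h6, Ideal.mem_under, map_natCast] at this
        exact this
      exact ⟨⟨hPX, (h2 P hPX).mpr (h6 ▸ hIY)⟩, h6⟩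
  rw [Finset.sum_congr rfl h4, Finset.sum_const, smul_eq_mul, mul_comm]

end NumberField
end Fermat.Agent.Cheb
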