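import Mathlib

/-!
# Counting ideals of given norm in a number field: multiplicativity and local bounds
-/

set_option autoImplicit false

open Ideal NumberField

namespace Fermat.Agent.Cheb

section Mult

variable {S : Type*} [CommRing S] [IsDedekindDomain S] [Module.Free ℤ S]

/-- number of ideals of norm `n` -/
noncomputable def idealCount (S : Type*) [CommRing S] [IsDedekindDomain S] [Module.Free ℤ S]
    (n : ℕ) : ℕ :=
  Nat.card {I : Ideal S // absNorm I = n}

theorem isCoprime_of_absNorm {m n : ℕ} (h : m.Coprime n) {I J : Ideal S}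
    (hI : absNorm I = m) (hJ : absNorm J = n) : IsCoprime I J := by
  rw [Ideal.isCoprime_iff_exists]
  have h1 : ((m : ℤ)).gcd n = 1 := by simpa using h
  have h2 := Int.gcd_eq_gcd_ab (m : ℤ) (n : ℤ)
  rw [h1] at h2
  refine ⟨(m : S) * ((Int.gcdA m n : ℤ) : S), ?_, (n : S) * ((Int.gcdB m n : ℤ) : S), ?_, ?_⟩
  · exact I.mul_mem_right _ (by rw [← hI]; exact absNorm_mem I)
  · exact J.mul_mem_right _ (by rw [← hJ]; exact absNorm_mem J)
  · have := congrArg (fun z : ℤ => (z : S)) h2
    push_cast at this
    rw [← this]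

variable [Module.Finite ℤ S]

theorem absNorm_span_natCast' (m : ℕ) :
    absNorm (span {(m : S)}) = m ^ (Module.finrank ℤ S) := by
  rw [absNorm_span_singleton]
  have h3 : (Algebra.norm ℤ) (m : S) = (m : ℤ) ^ (Module.finrank ℤ S) := by
    have := Algebra.norm_algebraMap (S := S) (m : ℤ)
    simpa using this
  rw [h3]
  simp [Int.natAbs_pow]

theorem absNorm_sup_span_natCast_left {m n : ℕ} (h : m.Coprime n)
    {I : Ideal S} (hI : absNorm I = m * n) :
    absNorm (I ⊔ span {(m : S)}) = m ∧ absNorm (I ⊔ span {(n : S)}) = n ∧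
      (I ⊔ span {(m : S)}) * (I ⊔ span {(n : S)}) = I := by
  classical
  have hcop : IsCoprime (span {(m : S)}) (span {(n : S)}) := by
    rw [Ideal.isCoprime_iff_exists]
    have h1 : ((m : ℤ)).gcd n = 1 := by simpa using h
    have h2 := Int.gcd_eq_gcd_ab (m : ℤ) (n : ℤ)
    rw [h1] at h2
    refine ⟨(m : S) * ((Int.gcdA m n : ℤ) : S), ?_, (n : S) * ((Int.gcdB m n : ℤ) : S), ?_, ?_⟩
    · exact Ideal.mul_mem_right _ _ (mem_span_singleton_self _)
    · exact Ideal.mul_mem_right _ _ (mem_span_singleton_self _)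
    · have := congrArg (fun z : ℤ => (z : S)) h2
      push_cast at this
      rw [← this]
  have hmn : ((m : S) * (n : S)) ∈ I := by
    have := absNorm_mem I
    rw [hI] at this
    exact_mod_cast this
  have hprod : (I ⊔ span {(m : S)}) * (I ⊔ span {(n : S)}) = I := by
    apply le_antisymm
    · rw [Ideal.sup_mul, Ideal.mul_sup, Ideal.mul_sup]
      refine sup_le (sup_le Ideal.mul_le_right Ideal.mul_le_left) (sup_le Ideal.mul_le_right ?_)
      rw [Ideal.span_singleton_mul_span_singleton, Ideal.span_singleton_le_iff_mem]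
      exact hmn
    · calc I = I * (span {(m : S)} ⊔ span {(n : S)}) := by
            rw [Ideal.isCoprime_iff_sup_eq.mp hcop, Ideal.mul_top]
        _ ≤ _ := by
            rw [Ideal.mul_sup]
            refine sup_le ?_ ?_
            · rw [mul_comm]
              exact Ideal.mul_mono le_sup_right le_sup_left
            · exact Ideal.mul_mono le_sup_left le_sup_right
  have hnorm : absNorm (I ⊔ span {(m : S)}) * absNorm (I ⊔ span {(n : S)}) = m * n := by
    rw [← map_mul, hprod, hI]
  -- norm of `I ⊔ (m)` divides a power of `m`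
  have h1 : absNorm (I ⊔ span {(m : S)}) ∣ m ^ (Module.finrank ℤ S) := by
    have h2 := absNorm_dvd_absNorm_of_le (le_sup_right : span {(m : S)} ≤ I ⊔ span {(m : S)})
    rwa [absNorm_span_natCast'] at h2
  have h2 : absNorm (I ⊔ span {(n : S)}) ∣ n ^ (Module.finrank ℤ S) := by
    have h2 := absNorm_dvd_absNorm_of_le (le_sup_right : span {(n : S)} ≤ I ⊔ span {(n : S)})
    rwa [absNorm_span_natCast'] at h2
  have c1 : (absNorm (I ⊔ span {(m : S)})).Coprime n :=
    Nat.Coprime.coprime_dvd_left h1 (Nat.Coprime.pow_left _ h)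
  have c2 : (absNorm (I ⊔ span {(n : S)})).Coprime m :=
    Nat.Coprime.coprime_dvd_left h2 (Nat.Coprime.pow_left _ h.symm)
  refine ⟨?_, ?_, hprod⟩
  · apply Nat.dvd_antisymm
    · exact c1.dvd_of_dvd_mul_right (hnorm ▸ Dvd.intro _ rfl)
    · exact c2.symm.dvd_of_dvd_mul_right (hnorm.symm ▸ Dvd.intro _ rfl)
  · apply Nat.dvd_antisymm
    · exact c2.dvd_of_dvd_mul_left (hnorm ▸ Dvd.intro_left _ rfl)
    · exact c1.symm.dvd_of_dvd_mul_left (hnorm.symm ▸ Dvd.intro_left _ rfl)

/-- The multiplicativity of the ideal counting function. -/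
theorem idealCount_mul {m n : ℕ} (h : m.Coprime n) :
    idealCount S (m * n) = idealCount S m * idealCount S n := by
  classical
  unfold idealCount
  rw [← Nat.card_prod]
  refine Nat.card_congr ?_
  refine
    { toFun := fun I => (⟨I.1 ⊔ span {(m : S)}, (absNorm_sup_span_natCast_left h I.2).1⟩,
        ⟨I.1 ⊔ span {(n : S)}, (absNorm_sup_span_natCast_left h I.2).2.1⟩)
      invFun := fun P => ⟨P.1.1 * P.2.1, by rw [map_mul, P.1.2, P.2.2]⟩
      left_inv := fun I => Subtype.ext (absNorm_sup_span_natCast_left h I.2).2.2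
      right_inv := ?_ }
  rintro ⟨⟨I, hI⟩, ⟨J, hJ⟩⟩
  have hcop := isCoprime_of_absNorm h hI hJ
  have hmI : (m : S) ∈ I := by rw [← hI]; exact absNorm_mem I
  have hnJ : (n : S) ∈ J := by rw [← hJ]; exact absNorm_mem J
  have hIJ : absNorm (I * J) = m * n := by rw [map_mul, hI, hJ]
  obtain ⟨e1, e2, e3⟩ := absNorm_sup_span_natCast_left h hIJ
  -- `IJ ⊔ (m) ≤ I`, same norm
  have l1 : I * J ⊔ span {(m : S)} ≤ I :=
    sup_le Ideal.mul_le_left ((Ideal.span_singleton_le_iff_mem _).mpr hmI)
  have l2 : I * J ⊔ span {(n : S)} ≤ J :=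
    sup_le Ideal.mul_le_right ((Ideal.span_singleton_le_iff_mem _).mpr hnJ)
  have q1 : I ≤ I * J ⊔ span {(m : S)} := by
    -- `I = I * (J ⊔ (m))` since `J ⊔ (m) = ⊤`
    have : J ⊔ span {(m : S)} = ⊤ := by
      rw [Ideal.eq_top_iff_one]
      have hc : IsCoprime (span {(m : S)}) (span {(n : S)}) := by
        rw [Ideal.isCoprime_iff_exists]
        have h1 : ((m : ℤ)).gcd n = 1 := by simpa using h
        have h2 := Int.gcd_eq_gcd_ab (m : ℤ) (n : ℤ)
        rw [h1] at h2
        refine ⟨(m : S) * ((Int.gcdA m n : ℤ) : S), ?_,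
          (n : S) * ((Int.gcdB m n : ℤ) : S), ?_, ?_⟩
        · exact Ideal.mul_mem_right _ _ (mem_span_singleton_self _)
        · exact Ideal.mul_mem_right _ _ (mem_span_singleton_self _)
        · have := congrArg (fun z : ℤ => (z : S)) h2
          push_cast at this
          rw [← this]
      have h1 : (1 : S) ∈ span {(m : S)} ⊔ span {(n : S)} := by
        rw [Ideal.isCoprime_iff_sup_eq.mp hc]; trivial
      have h2 : span {(m : S)} ⊔ span {(n : S)} ≤ J ⊔ span {(m : S)} :=
        sup_le le_sup_right (((Ideal.span_singleton_le_iff_mem _).mpr hnJ).trans le_sup_left)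
      exact h2 h1
    calc I = I * (J ⊔ span {(m : S)}) := by rw [this, Ideal.mul_top]
      _ ≤ _ := by
        rw [Ideal.mul_sup]
        exact sup_le_sup le_rfl Ideal.mul_le_right
  have q2 : J ≤ I * J ⊔ span {(n : S)} := by
    have : I ⊔ span {(n : S)} = ⊤ := by
      rw [Ideal.eq_top_iff_one]
      have hc : IsCoprime (span {(m : S)}) (span {(n : S)}) := by
        rw [Ideal.isCoprime_iff_exists]
        have h1 : ((m : ℤ)).gcd n = 1 := by simpa using h
        have h2 := Int.gcd_eq_gcd_ab (m : ℤ) (n : ℤ)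
        rw [h1] at h2
        refine ⟨(m : S) * ((Int.gcdA m n : ℤ) : S), ?_,
          (n : S) * ((Int.gcdB m n : ℤ) : S), ?_, ?_⟩
        · exact Ideal.mul_mem_right _ _ (mem_span_singleton_self _)
        · exact Ideal.mul_mem_right _ _ (mem_span_singleton_self _)
        · have := congrArg (fun z : ℤ => (z : S)) h2
          push_cast at this
          rw [← this]
      have h1 : (1 : S) ∈ span {(m : S)} ⊔ span {(n : S)} := by
        rw [Ideal.isCoprime_iff_sup_eq.mp hc]; trivial
      have h2 : span {(m : S)} ⊔ span {(n : S)} ≤ I ⊔ span {(n : S)} :=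
        sup_le (((Ideal.span_singleton_le_iff_mem _).mpr hmI).trans le_sup_left) le_sup_right
      exact h2 h1
    calc J = (I ⊔ span {(n : S)}) * J := by rw [this, Ideal.top_mul]
      _ ≤ _ := by
        rw [Ideal.sup_mul]
        exact sup_le_sup le_rfl Ideal.mul_le_left
  ext : 2
  · exact le_antisymm l1 q1
  · exact le_antisymm l2 q2

omit [Module.Finite ℤ S] in
theorem idealCount_one : idealCount S 1 = 1 := by
  unfold idealCount
  have : ∀ I : Ideal S, absNorm I = 1 ↔ I = ⊤ := fun I => absNorm_eq_one_iff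
  simp_rw [this]
  simp

open UniqueFactorizationMonoid in
omit [Module.Finite ℤ S] in
theorem card_normalizedFactors_le {p : ℕ} (hp : p.Prime) {I : Ideal S} {e : ℕ}
    (hI : absNorm I = p ^ e) : Multiset.card (normalizedFactors I) ≤ e := by
  classical
  have hI0 : I ≠ ⊥ := by
    rintro rfl
    rw [absNorm_bot] at hI
    exact (pow_ne_zero e hp.ne_zero) hI.symm
  have h1 : (normalizedFactors I).prod = I := Ideal.prod_normalizedFactors_eq_self hI0
  have h2 : ((normalizedFactors I).map absNorm).prod = p ^ e := by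
    rw [← map_multiset_prod, h1, hI]
  have h3 : ∀ x ∈ (normalizedFactors I).map absNorm, p ≤ x := by
    intro x hx
    obtain ⟨P, hP, rfl⟩ := Multiset.mem_map.mp hx
    rw [Ideal.mem_normalizedFactors_iff hI0] at hP
    have hd : absNorm P ∣ p ^ e := hI ▸ absNorm_dvd_absNorm_of_le hP.2
    obtain ⟨k, -, hk⟩ := (Nat.dvd_prime_pow hp).mp hd
    have hk0 : k ≠ 0 := by
      rintro rfl
      rw [pow_zero, absNorm_eq_one_iff] at hk
      exact hP.1.ne_top hk
    rw [hk]
    exact Nat.le_self_pow hk0 p
  have h4 : ∀ (s : Multiset ℕ), (∀ x ∈ s, p ≤ x) → p ^ Multiset.card s ≤ s.prod := by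
    intro s
    induction s using Multiset.induction_on with
    | empty => simp
    | cons a s ih =>
      intro h
      rw [Multiset.card_cons, Multiset.prod_cons, pow_succ, mul_comm]
      exact Nat.mul_le_mul (h a (Multiset.mem_cons_self a s))
        (ih fun x hx => h x (Multiset.mem_cons_of_mem hx))
  have h5 := h4 _ h3
  rw [Multiset.card_map, h2] at h5
  exact (Nat.pow_le_pow_iff_right hp.one_lt).mp h5

open UniqueFactorizationMonoid in
theorem idealCount_prime_pow_le {p : ℕ} (hp : p.Prime) (e : ℕ) :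
    idealCount S (p ^ e) ≤ (e + 1) ^ (Module.finrank ℤ S) := by
  classical
  set F : Finset (Ideal S) := (normalizedFactors (span {(p : S)})).toFinset with hF
  have hFcard : F.card ≤ Module.finrank ℤ S :=
    (Multiset.toFinset_card_le _).trans (card_normalizedFactors_le hp (absNorm_span_natCast' p))
  have hp0 : span {(p : S)} ≠ (⊥ : Ideal S) := by
    intro h
    have := absNorm_span_natCast' (S := S) p
    rw [h, absNorm_bot] at this
    exact (pow_ne_zero _ hp.ne_zero) this.symm
  have key : ∀ I : Ideal S, absNorm I = p ^ e → ∀ P ∈ normalizedFactors I, P ∈ F := by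
    intro I hI P hP
    have hI0 : I ≠ ⊥ := by
      rintro rfl
      rw [absNorm_bot] at hI
      exact (pow_ne_zero e hp.ne_zero) hI.symm
    rw [Ideal.mem_normalizedFactors_iff hI0] at hP
    rw [hF, Multiset.mem_toFinset, Ideal.mem_normalizedFactors_iff hp0]
    refine ⟨hP.1, ?_⟩
    rw [Ideal.span_singleton_le_iff_mem]
    have hd : absNorm P ∣ p ^ e := hI ▸ absNorm_dvd_absNorm_of_le hP.2
    obtain ⟨k, -, hk⟩ := (Nat.dvd_prime_pow hp).mp hd
    have := absNorm_mem P
    rw [hk, Nat.cast_pow] at this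
    exact hP.1.mem_of_pow_mem k this
  unfold idealCount
  let f : {I : Ideal S // absNorm I = p ^ e} → (F → Fin (e + 1)) := fun I P =>
    ⟨Multiset.count P.1 (normalizedFactors I.1),
      Nat.lt_succ_of_le ((Multiset.count_le_card _ _).trans (card_normalizedFactors_le hp I.2))⟩
  have hf : Function.Injective f := by
    intro I J hIJ
    apply Subtype.ext
    have hI0 : I.1 ≠ ⊥ := by
      intro h
      have := I.2
      rw [h, absNorm_bot] at this
      exact (pow_ne_zero e hp.ne_zero) this.symm
    have hJ0 : J.1 ≠ ⊥ := by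
      intro h
      have := J.2
      rw [h, absNorm_bot] at this
      exact (pow_ne_zero e hp.ne_zero) this.symm
    rw [← Ideal.prod_normalizedFactors_eq_self hI0, ← Ideal.prod_normalizedFactors_eq_self hJ0]
    congr 1
    rw [Multiset.ext]
    intro P
    by_cases hP : P ∈ F
    · have := congrFun hIJ ⟨P, hP⟩
      exact congrArg Fin.val this
    · rw [Multiset.count_eq_zero_of_notMem fun h => hP (key I.1 I.2 P h),
        Multiset.count_eq_zero_of_notMem fun h => hP (key J.1 J.2 P h)]
  calc Nat.card {I : Ideal S // absNorm I = p ^ e} ≤ Nat.card (F → Fin (e + 1)) :=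
        Nat.card_le_card_of_injective f hf
    _ = (e + 1) ^ F.card := by
        rw [Nat.card_fun, Nat.card_eq_fintype_card, Fintype.card_fin, Nat.card_eq_fintype_card,
          Fintype.card_coe]
    _ ≤ _ := Nat.pow_le_pow_right (Nat.succ_pos e) hFcard

end Mult

end Fermat.Agent.Cheb
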