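import Mathlib
import Fermat.Agent.Cheb.IdealCount

/-!
# Logarithmic asymptotics of the sum over degree one primes of a number field
-/

set_option autoImplicit false

open Ideal NumberField Filter Topology

namespace Fermat.Agent.Cheb

section

variable (K : Type*) [Field K] [NumberField K]

/-- the coefficient function `n ↦ a_K(n) n^{-s}` -/
noncomputable def zterm (s : ℝ) (n : ℕ) : ℝ := (idealCount (𝓞 K) n : ℝ) * (n : ℝ) ^ (-s)

variable {K}

theorem zterm_nonneg (s : ℝ) (n : ℕ) : 0 ≤ zterm K s n :=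
  mul_nonneg (Nat.cast_nonneg _) (Real.rpow_nonneg (Nat.cast_nonneg _) _)

theorem zterm_zero {s : ℝ} (hs : s ≠ 0) : zterm K s 0 = 0 := by
  simp [zterm, Real.zero_rpow (neg_ne_zero.mpr hs)]

theorem zterm_one (s : ℝ) : zterm K s 1 = 1 := by
  simp [zterm, idealCount_one]

theorem zterm_mul (s : ℝ) {m n : ℕ} (h : m.Coprime n) :
    zterm K s (m * n) = zterm K s m * zterm K s n := by
  unfold zterm
  rw [idealCount_mul h, Nat.cast_mul, Nat.cast_mul,
    Real.mul_rpow (Nat.cast_nonneg _) (Nat.cast_nonneg _)]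
  ring

theorem tendsto_sum_idealCount :
    Tendsto (fun n : ℕ => (∑ k ∈ Finset.Icc 1 n, (idealCount (𝓞 K) k : ℝ)) / n) atTop
      (𝓝 (dedekindZeta_residue K)) := by
  refine ((Ideal.tendsto_norm_le_div_atTop₀ K).comp tendsto_natCast_atTop_atTop).congr fun n ↦ ?_
  simp only [Function.comp_apply, Nat.cast_le, ← Nat.cast_sum]
  congr
  rw [← add_left_inj 1, ← card_norm_le_eq_card_norm_le_add_one,
    show Finset.Icc 1 n = Finset.Ioc 0 n from Finset.Icc_succ_left_eq_Ioc _ _,
    show 1 = idealCount (𝓞 K) 0 by simp [idealCount, Ideal.absNorm_eq_zero_iff],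
    Finset.sum_Ioc_add_eq_sum_Icc (n.zero_le)]
  simp only [idealCount]
  rw [← Finset.card_preimage_eq_sum_card_image_eq (fun k _ ↦ finite_setOfPred_absNorm_eq k)]
  simp [Set.coe_eq_subtype]

theorem lseriesSummable_idealCount {s : ℝ} (hs : 1 < s) :
    LSeriesSummable (fun n => ((idealCount (𝓞 K) n : ℝ) : ℂ)) s := by
  refine LSeriesSummable_of_sum_norm_bigO_and_nonneg (r := 1) ?_ (fun n => Nat.cast_nonneg _)
    zero_le_one (by simpa using hs)
  have h := tendsto_sum_idealCount (K := K)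
  refine Asymptotics.isBigO_of_div_tendsto_nhds ?_ (dedekindZeta_residue K) ?_
  · filter_upwards [eventually_gt_atTop 0] with n hn h0
    exfalso
    have : (n : ℝ) ^ (1 : ℝ) ≠ 0 := by
      rw [Real.rpow_one]; exact_mod_cast hn.ne'
    exact this h0
  · simpa [Real.rpow_one] using! h

theorem lseries_term_eq {s : ℝ} (hs : 1 < s) (n : ℕ) :
    LSeries.term (fun n => ((idealCount (𝓞 K) n : ℝ) : ℂ)) s n = ((zterm K s n : ℝ) : ℂ) := by
  rcases Nat.eq_zero_or_pos n with rfl | hn
  · rw [LSeries.term_zero, zterm_zero (by linarith)]; simp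
  · rw [LSeries.term_of_ne_zero hn.ne', zterm]
    push_cast
    rw [Complex.ofReal_cpow (Nat.cast_nonneg n)]
    push_cast
    rw [Complex.cpow_neg, div_eq_mul_inv]

theorem summable_zterm {s : ℝ} (hs : 1 < s) : Summable (zterm K s) := by
  have h := lseriesSummable_idealCount (K := K) hs
  rw [LSeriesSummable] at h
  have h2 : Summable fun n => ((zterm K s n : ℝ) : ℂ) :=
    h.congr fun n => lseries_term_eq hs n
  exact_mod_cast h2

/-- The real Dedekind zeta value. -/
noncomputable def zetaR (K : Type*) [Field K] [NumberField K] (s : ℝ) : ℝ := ∑' n, zterm K s n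

theorem dedekindZeta_eq {s : ℝ} (hs : 1 < s) : dedekindZeta K s = ((zetaR K s : ℝ) : ℂ) := by
  rw [dedekindZeta, zetaR, LSeries, Complex.ofReal_tsum]
  exact tsum_congr fun n => lseries_term_eq hs n

theorem tendsto_zetaR :
    Tendsto (fun s : ℝ => (s - 1) * zetaR K s) (𝓝[>] 1) (𝓝 (dedekindZeta_residue K)) := by
  have h := tendsto_sub_one_mul_dedekindZeta_nhdsGT K
  have h2 : Tendsto (fun s : ℝ => (((s - 1) * zetaR K s : ℝ) : ℂ)) (𝓝[>] 1)
      (𝓝 ((dedekindZeta_residue K : ℝ) : ℂ)) := by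
    refine h.congr' ?_
    filter_upwards [self_mem_nhdsWithin] with s hs
    rw [dedekindZeta_eq hs]
    push_cast
    rfl
  exact tendsto_ofReal_iff.mp h2

/-- local factor -/
noncomputable def localFactor (K : Type*) [Field K] [NumberField K] (s : ℝ) (p : ℕ) : ℝ :=
  ∑' e, zterm K s (p ^ e)

theorem hasProd_zetaR {s : ℝ} (hs : 1 < s) :
    HasProd (fun p : Nat.Primes => localFactor K s p) (zetaR K s) := by
  refine EulerProduct.eulerProduct_hasProd (f := zterm K s) (zterm_one s) (fun {m n} h =>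
    zterm_mul s h) ?_ (zterm_zero (by linarith))
  exact (summable_zterm hs).norm

theorem summable_zterm_pow {s : ℝ} (hs : 1 < s) {p : ℕ} (hp : p.Prime) :
    Summable fun e => zterm K s (p ^ e) :=
  (summable_zterm hs).comp_injective (Nat.pow_right_injective hp.two_le)

/-- the tail constant -/
noncomputable def tailConst (d : ℕ) : ℝ := ∑' e : ℕ, ((e : ℝ) + 3) ^ d * (1 / 2 : ℝ) ^ e

theorem summable_tailConst (d : ℕ) : Summable fun e : ℕ => ((e : ℝ) + 3) ^ d * (1 / 2 : ℝ) ^ e := by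
  have h := summable_pow_mul_geometric_of_norm_lt_one (R := ℝ) d (r := (1 / 2 : ℝ))
    (by rw [Real.norm_eq_abs, abs_of_pos] <;> norm_num)
  have h2 := ((summable_nat_add_iff 3).mpr h).mul_left (8 : ℝ)
  refine h2.congr fun e => ?_
  push_cast
  rw [pow_add]
  ring

theorem zterm_prime_pow_le {s : ℝ} (hs : 1 ≤ s) {p : ℕ} (hp : p.Prime) (e : ℕ) :
    zterm K s (p ^ (e + 2)) ≤
      ((p : ℝ) ^ (-2 : ℝ)) *
        (((e : ℝ) + 3) ^ (Module.finrank ℤ (𝓞 K)) * (1 / 2 : ℝ) ^ e) := by
  unfold zterm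
  have hp0 : (0 : ℝ) < p := by exact_mod_cast hp.pos
  have hp2 : (2 : ℝ) ≤ p := by exact_mod_cast hp.two_le
  have h1 : (idealCount (𝓞 K) (p ^ (e + 2)) : ℝ) ≤
      ((e : ℝ) + 3) ^ (Module.finrank ℤ (𝓞 K)) := by
    have := idealCount_prime_pow_le (S := 𝓞 K) hp (e + 2)
    calc (idealCount (𝓞 K) (p ^ (e + 2)) : ℝ) ≤
        (((e + 2 + 1) ^ (Module.finrank ℤ (𝓞 K)) : ℕ) : ℝ) := by exact_mod_cast this
      _ = _ := by push_cast; ring_nf
  have h2 : ((p ^ (e + 2) : ℕ) : ℝ) ^ (-s) ≤ (p : ℝ) ^ (-2 : ℝ) * (1 / 2 : ℝ) ^ e := by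
    calc ((p ^ (e + 2) : ℕ) : ℝ) ^ (-s) ≤ ((p ^ (e + 2) : ℕ) : ℝ) ^ (-1 : ℝ) := by
          apply Real.rpow_le_rpow_of_exponent_le
          · exact_mod_cast Nat.one_le_pow _ _ hp.pos
          · linarith
      _ = (p : ℝ) ^ (-2 : ℝ) * ((p : ℝ)⁻¹) ^ e := by
          rw [Real.rpow_neg_one, Real.rpow_neg hp0.le, Real.rpow_two]
          push_cast
          rw [pow_add, mul_inv, inv_pow, mul_comm]
      _ ≤ (p : ℝ) ^ (-2 : ℝ) * (1 / 2 : ℝ) ^ e := by
          apply mul_le_mul_of_nonneg_left _ (Real.rpow_nonneg hp0.le _)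
          apply pow_le_pow_left₀ (inv_nonneg.mpr hp0.le)
          rw [one_div]
          exact inv_anti₀ (by norm_num) hp2
  calc (idealCount (𝓞 K) (p ^ (e + 2)) : ℝ) * ((p ^ (e + 2) : ℕ) : ℝ) ^ (-s)
      ≤ ((e : ℝ) + 3) ^ (Module.finrank ℤ (𝓞 K)) * ((p : ℝ) ^ (-2 : ℝ) * (1 / 2 : ℝ) ^ e) :=
        mul_le_mul h1 h2 (Real.rpow_nonneg (Nat.cast_nonneg _) _) (by positivity)
    _ = _ := by ring

theorem localFactor_eq {s : ℝ} (hs : 1 < s) {p : ℕ} (hp : p.Prime) :
    localFactor K s p = 1 + zterm K s p + ∑' e, zterm K s (p ^ (e + 2)) := by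
  unfold localFactor
  have h := (summable_zterm_pow (K := K) hs hp).sum_add_tsum_nat_add 2
  rw [← h]
  simp [Finset.sum_range_succ, zterm_one]

theorem one_le_localFactor {s : ℝ} (hs : 1 < s) {p : ℕ} (hp : p.Prime) :
    1 + zterm K s p ≤ localFactor K s p := by
  rw [localFactor_eq hs hp]
  have : 0 ≤ ∑' e, zterm K s (p ^ (e + 2)) := tsum_nonneg fun e => zterm_nonneg _ _
  linarith

theorem localFactor_le {s : ℝ} (hs : 1 < s) {p : ℕ} (hp : p.Prime) :
    localFactor K s p ≤ 1 + (zterm K s p +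
      (p : ℝ) ^ (-2 : ℝ) * tailConst (Module.finrank ℤ (𝓞 K))) := by
  rw [localFactor_eq hs hp, add_assoc, tailConst, ← tsum_mul_left]
  gcongr
  · exact ((summable_nat_add_iff 2).mpr (summable_zterm_pow (K := K) hs hp))
  · exact (summable_tailConst _).mul_left _
  · exact zterm_prime_pow_le hs.le hp _

theorem summable_primes_zterm {s : ℝ} (hs : 1 < s) :
    Summable fun p : Nat.Primes => zterm K s p :=
  (summable_zterm hs).comp_injective Nat.Primes.coe_nat_injective

theorem summable_primes_sq : Summable fun p : Nat.Primes => ((p : ℕ) : ℝ) ^ (-2 : ℝ) := by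
  have h : Summable fun n : ℕ => (n : ℝ) ^ (-2 : ℝ) := Real.summable_nat_rpow.mpr (by norm_num)
  exact h.comp_injective Nat.Primes.coe_nat_injective

theorem zetaR_pos {s : ℝ} (hs : 1 < s) : 1 ≤ zetaR K s := by
  unfold zetaR
  rw [← zterm_one (K := K) s]
  exact (summable_zterm hs).le_tsum 1 fun n _ => zterm_nonneg _ _

/-- upper bound `log ζ(s) ≤ P(s) + C` -/
theorem log_zetaR_le {s : ℝ} (hs : 1 < s) :
    Real.log (zetaR K s) ≤ ∑' p : Nat.Primes, zterm K s p +
      (∑' p : Nat.Primes, ((p : ℕ) : ℝ) ^ (-2 : ℝ)) * tailConst (Module.finrank ℤ (𝓞 K)) := by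
  have hpos : 0 < zetaR K s := lt_of_lt_of_le one_pos (zetaR_pos hs)
  rw [Real.log_le_iff_le_exp hpos]
  refine hasProd_le_of_prod_le (hasProd_zetaR hs) fun F => ?_
  have htc : 0 ≤ tailConst (Module.finrank ℤ (𝓞 K)) := tsum_nonneg fun e => by positivity
  have hsum : Summable fun p : Nat.Primes => zterm K s p +
      ((p : ℕ) : ℝ) ^ (-2 : ℝ) * tailConst (Module.finrank ℤ (𝓞 K)) :=
    (summable_primes_zterm hs).add (summable_primes_sq.mul_right _)
  calc ∏ p ∈ F, localFactor K s p ≤ ∏ p ∈ F, Real.exp (zterm K s p +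
      ((p : ℕ) : ℝ) ^ (-2 : ℝ) * tailConst (Module.finrank ℤ (𝓞 K))) := by
        apply Finset.prod_le_prod
        · intro p _
          exact tsum_nonneg fun e => zterm_nonneg _ _
        · intro p _
          refine (localFactor_le hs p.2).trans ?_
          rw [add_comm 1]
          exact Real.add_one_le_exp _
    _ = Real.exp (∑ p ∈ F, (zterm K s p +
      ((p : ℕ) : ℝ) ^ (-2 : ℝ) * tailConst (Module.finrank ℤ (𝓞 K)))) := (Real.exp_sum _ _).symm
    _ ≤ Real.exp (∑' p : Nat.Primes, (zterm K s p +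
      ((p : ℕ) : ℝ) ^ (-2 : ℝ) * tailConst (Module.finrank ℤ (𝓞 K)))) := by
        apply Real.exp_le_exp.mpr
        refine hsum.sum_le_tsum F fun p _ => ?_
        exact add_nonneg (zterm_nonneg _ _)
          (mul_nonneg (Real.rpow_nonneg (Nat.cast_nonneg _) _) htc)
    _ = _ := by
        rw [(summable_primes_zterm hs).tsum_add (summable_primes_sq.mul_right _), tsum_mul_right]

/-- partial products are at most `ζ` -/
theorem prod_localFactor_le {s : ℝ} (hs : 1 < s) (F : Finset Nat.Primes) :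
    ∏ p ∈ F, localFactor K s p ≤ zetaR K s := by
  have h := hasProd_zetaR (K := K) hs
  rw [HasProd, SummationFilter.unconditional] at h
  refine ge_of_tendsto h ?_
  filter_upwards [eventually_ge_atTop F] with G hG
  classical
  have h1 : ∀ p : Nat.Primes, 1 ≤ localFactor K s p := fun p =>
    le_trans (by linarith [zterm_nonneg (K := K) s p]) (one_le_localFactor hs p.2)
  rw [← Finset.prod_sdiff hG]
  have h2 : (1 : ℝ) ≤ ∏ p ∈ G \ F, localFactor K s p := by
    calc (1 : ℝ) = ∏ p ∈ G \ F, (1 : ℝ) := by simp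
      _ ≤ _ := Finset.prod_le_prod (fun _ _ => zero_le_one) fun p _ => h1 p
  have h3 : (0 : ℝ) ≤ ∏ p ∈ F, localFactor K s p :=
    Finset.prod_nonneg fun p _ => zero_le_one.trans (h1 p)
  nlinarith

/-- lower bound -/
theorem le_log_zetaR {s : ℝ} (hs : 1 < s) :
    ∑' p : Nat.Primes, zterm K s p -
      (∑' p : Nat.Primes, ((p : ℕ) : ℝ) ^ (-2 : ℝ)) * (2 ^ (Module.finrank ℤ (𝓞 K))) ^ 2 ≤
        Real.log (zetaR K s) := by
  set D : ℝ := 2 ^ (Module.finrank ℤ (𝓞 K)) with hD
  have hpos : 0 < zetaR K s := lt_of_lt_of_le one_pos (zetaR_pos hs)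
  have hz : ∀ p : Nat.Primes, zterm K s p ≤ D * ((p : ℕ) : ℝ) ^ (-1 : ℝ) := by
    intro p
    unfold zterm
    apply mul_le_mul _ _ (Real.rpow_nonneg (Nat.cast_nonneg _) _) (by positivity)
    · have := idealCount_prime_pow_le (S := 𝓞 K) p.2 1
      rw [pow_one] at this
      rw [hD]
      exact_mod_cast this
    · apply Real.rpow_le_rpow_of_exponent_le
      · exact_mod_cast p.2.one_lt.le
      · linarith
  have hlog : ∀ p : Nat.Primes, zterm K s p - ((p : ℕ) : ℝ) ^ (-2 : ℝ) * D ^ 2 ≤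
      Real.log (1 + zterm K s p) := by
    intro p
    have h0 := zterm_nonneg (K := K) s p
    refine le_trans ?_ (Real.le_log_one_add_of_nonneg h0)
    have h1 : (zterm K s p) ^ 2 ≤ ((p : ℕ) : ℝ) ^ (-2 : ℝ) * D ^ 2 := by
      calc (zterm K s p) ^ 2 ≤ (D * ((p : ℕ) : ℝ) ^ (-1 : ℝ)) ^ 2 :=
            pow_le_pow_left₀ h0 (hz p) 2
        _ = _ := by
            rw [mul_pow, mul_comm, ← Real.rpow_natCast, ← Real.rpow_mul (Nat.cast_nonneg _)]
            norm_num
    rw [le_div_iff₀ (by linarith)]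
    nlinarith
  have hsum : Summable fun p : Nat.Primes => zterm K s p -
      ((p : ℕ) : ℝ) ^ (-2 : ℝ) * D ^ 2 :=
    (summable_primes_zterm hs).sub (summable_primes_sq.mul_right _)
  rw [← tsum_mul_right, ← (summable_primes_zterm hs).tsum_sub (summable_primes_sq.mul_right _)]
  refine hsum.tsum_le_of_sum_le fun F => ?_
  calc ∑ p ∈ F, (zterm K s p - ((p : ℕ) : ℝ) ^ (-2 : ℝ) * D ^ 2)
      ≤ ∑ p ∈ F, Real.log (1 + zterm K s p) := Finset.sum_le_sum fun p _ => hlog p
    _ = Real.log (∏ p ∈ F, (1 + zterm K s p)) := by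
        rw [Real.log_prod]
        intro p _
        have h0 := zterm_nonneg (K := K) s p
        positivity
    _ ≤ Real.log (zetaR K s) := by
        apply Real.log_le_log
        · exact Finset.prod_pos fun p _ => by
            have h0 := zterm_nonneg (K := K) s p
            positivity
        · refine (Finset.prod_le_prod (fun p _ => ?_) fun p _ => one_le_localFactor hs p.2).trans
            (prod_localFactor_le hs F)
          have h0 := zterm_nonneg (K := K) s p
          positivity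

theorem summable_idealCount_primes (K : Type*) [Field K] [NumberField K] {s : ℝ} (hs : 1 < s) :
    Summable (fun p : Nat.Primes => (Nat.card {I : Ideal (𝓞 K) // Ideal.absNorm I = (p : ℕ)} : ℝ) *
      ((p : ℕ) : ℝ) ^ (-s)) :=
  summable_primes_zterm (K := K) hs

/-- **The key asymptotics**: the sum over degree one primes of `K` is `log (1/(s-1)) + O(1)`. -/
theorem exists_bound_degreeOne (K : Type*) [Field K] [NumberField K] :
    ∃ C : ℝ, ∀ s : ℝ, 1 < s → s ≤ 2 →
      |∑' p : Nat.Primes, (Nat.card {I : Ideal (𝓞 K) // Ideal.absNorm I = (p : ℕ)} : ℝ) *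
        ((p : ℕ) : ℝ) ^ (-s) - Real.log (1 / (s - 1))| ≤ C := by
  -- near `1`
  have hres := dedekindZeta_residue_pos K
  have h1 : Tendsto (fun s : ℝ => Real.log ((s - 1) * zetaR K s)) (𝓝[>] 1)
      (𝓝 (Real.log (dedekindZeta_residue K))) :=
    (Real.continuousAt_log hres.ne').tendsto.comp tendsto_zetaR
  have h2 : ∀ᶠ s : ℝ in 𝓝[>] 1, |Real.log ((s - 1) * zetaR K s)| ≤
      |Real.log (dedekindZeta_residue K)| + 1 := by
    have h3 := h1.abs
    exact (h3.eventually (eventually_lt_nhds (lt_add_one _))).mono fun s hs => hs.le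
  rw [eventually_nhdsWithin_iff, Metric.eventually_nhds_iff] at h2
  obtain ⟨ε, hε, h3⟩ := h2
  set A : ℝ := (∑' p : Nat.Primes, ((p : ℕ) : ℝ) ^ (-2 : ℝ)) *
    tailConst (Module.finrank ℤ (𝓞 K)) with hA
  set B : ℝ := (∑' p : Nat.Primes, ((p : ℕ) : ℝ) ^ (-2 : ℝ)) *
    (2 ^ (Module.finrank ℤ (𝓞 K))) ^ 2 with hB
  have hA0 : 0 ≤ A := mul_nonneg (tsum_nonneg fun p => Real.rpow_nonneg (Nat.cast_nonneg _) _)
    (tsum_nonneg fun e => by positivity)
  have hB0 : 0 ≤ B := mul_nonneg (tsum_nonneg fun p => Real.rpow_nonneg (Nat.cast_nonneg _) _)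
    (by positivity)
  set R : ℝ := |Real.log (dedekindZeta_residue K)| + 1 with hR
  -- the monotone bound for `s ≥ 1 + ε'`
  set t : ℝ := 1 + min (ε / 2) 1 with ht
  have ht1 : 1 < t := by
    rw [ht]; have : 0 < min (ε / 2) 1 := lt_min (by linarith) one_pos
    linarith
  set P : ℝ → ℝ := fun s => ∑' p : Nat.Primes, zterm K s p with hP
  have hP0 : ∀ s, 0 ≤ P s := fun s => tsum_nonneg fun p => zterm_nonneg _ _
  have hPmono : ∀ s, t ≤ s → P s ≤ P t := by
    intro s hs
    have hs1 : 1 < s := lt_of_lt_of_le ht1 hs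
    refine (summable_primes_zterm hs1).tsum_le_tsum (fun p => ?_) (summable_primes_zterm ht1)
    unfold zterm
    apply mul_le_mul_of_nonneg_left _ (Nat.cast_nonneg _)
    apply Real.rpow_le_rpow_of_exponent_le
    · exact_mod_cast p.2.one_lt.le
    · linarith
  refine ⟨A + B + R + P t + |Real.log (1 / (t - 1))|, fun s hs hs2 => ?_⟩
  change |P s - Real.log (1 / (s - 1))| ≤ _
  have hz : 0 < zetaR K s := lt_of_lt_of_le one_pos (zetaR_pos hs)
  have hs0 : 0 < s - 1 := by linarith
  rcases lt_or_ge s t with hst | hst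
  · -- near one
    have hd : dist s 1 < ε := by
      rw [Real.dist_eq, abs_of_pos hs0]
      have : min (ε / 2) 1 ≤ ε / 2 := min_le_left _ _
      linarith
    have h4 := h3 hd hs
    have e1 : Real.log ((s - 1) * zetaR K s) = Real.log (zetaR K s) - Real.log (1 / (s - 1)) := by
      rw [Real.log_mul hs0.ne' hz.ne', one_div, Real.log_inv]
      ring
    have h5 := log_zetaR_le (K := K) hs
    have h6 := le_log_zetaR (K := K) hs
    rw [e1] at h4
    have h7 := abs_le.mp h4
    have h8 := hP0 t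
    have h9 := abs_nonneg (Real.log (1 / (t - 1)))
    rw [abs_le]
    constructor
    · change -_ ≤ (∑' p : Nat.Primes, zterm K s p) - Real.log (1 / (s - 1))
      linarith [h7.1, h7.2]
    · change (∑' p : Nat.Primes, zterm K s p) - Real.log (1 / (s - 1)) ≤ _
      linarith [h7.1, h7.2]
  · have h4 := hPmono s hst
    have h5 := hP0 s
    have ht0 : 0 < t - 1 := by linarith
    have h6 : 0 ≤ Real.log (1 / (s - 1)) := by
      apply Real.log_nonneg
      rw [le_div_iff₀ hs0]
      linarith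
    have h7 : Real.log (1 / (s - 1)) ≤ Real.log (1 / (t - 1)) := by
      apply Real.log_le_log (by positivity)
      exact one_div_le_one_div_of_le ht0 (by linarith)
    have h8 := le_abs_self (Real.log (1 / (t - 1)))
    have hR0 : 0 ≤ R := by positivity
    rw [abs_le]
    constructor <;> linarith

end

end Fermat.Agent.Cheb
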