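import Fermat.Agent.Cheb.Bridge
import Fermat.Prelude.Def_GaloisRep_LocalConditions

set_option linter.unusedSectionVars false
set_option linter.unusedVariables false
set_option linter.style.haveILetI false

open Ideal Pointwise NumberField Polynomial

namespace Fermat.Agent.Cheb

local notation "Qbar" => AlgebraicClosure ℚ
local notation "Γℚ" => (AlgebraicClosure ℚ ≃ₐ[ℚ] AlgebraicClosure ℚ)

open Fermat.Agent.Frob

section RankTwo

/-- trace of the `n`-th power in terms of trace and determinant. -/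
def tp {A : Type*} [CommRing A] (t d : A) : ℕ → A
  | 0 => 2
  | 1 => t
  | (n + 2) => t * tp t d (n + 1) - d * tp t d n

theorem map_tp {A B : Type*} [CommRing A] [CommRing B] (φ : A →+* B) (t d : A) :
    ∀ n : ℕ, φ (tp t d n) = tp (φ t) (φ d) n
  | 0 => map_ofNat φ 2
  | 1 => by simp [tp]
  | (n + 2) => by simp [tp, map_tp φ t d n, map_tp φ t d (n + 1)]

theorem tp_mem {A : Type*} [CommRing A] (B : Subring A) {t d : A} (ht : t ∈ B) (hd : d ∈ B) :
    ∀ n : ℕ, tp t d n ∈ B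
  | 0 => by
    have : (2 : A) = ((2 : ℕ) : A) := by norm_num
    rw [tp, this]; exact natCast_mem B 2
  | 1 => ht
  | (n + 2) => B.sub_mem (B.mul_mem ht (tp_mem B ht hd (n + 1))) (B.mul_mem hd (tp_mem B ht hd n))

variable {A : Type*} [CommRing A] 

theorem trace_pow_matrix (M : Matrix (Fin 2) (Fin 2) A) : ∀ n : ℕ,
    (M ^ n).trace = tp M.trace M.det n
  | 0 => by simp [tp]
  | 1 => by simp [tp]
  | (n + 2) => by
    have hch : M ^ 2 = M.trace • M - M.det • (1 : Matrix (Fin 2) (Fin 2) A) := by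
      ext i j
      fin_cases i <;> fin_cases j <;>
        simp [pow_two, Matrix.mul_apply, Fin.sum_univ_two, Matrix.trace_fin_two, Matrix.det_fin_two] <;>
        ring
    have h1 : M ^ (n + 2) = M.trace • M ^ (n + 1) - M.det • M ^ n := by
      rw [pow_add, hch, mul_sub, mul_smul_comm, mul_smul_comm, mul_one, ← pow_succ]
    rw [h1, Matrix.trace_sub, Matrix.trace_smul, Matrix.trace_smul, trace_pow_matrix M n,
      trace_pow_matrix M (n + 1), tp, smul_eq_mul, smul_eq_mul]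

variable [Nontrivial A] {V : Type*} [AddCommGroup V] [Module A V] [Module.Free A V] [Module.Finite A V]

/-- a basis indexed by `Fin 2`. -/
noncomputable def basis2 (hV : Module.finrank A V = 2) : Module.Basis (Fin 2) A V :=
  Module.finBasisOfFinrankEq A V hV

theorem trace_pow_end (hV : Module.finrank A V = 2) (f : Module.End A V) (n : ℕ) :
    LinearMap.trace A V (f ^ n) = tp (LinearMap.trace A V f) (LinearMap.det f) n := by
  let b := basis2 hV
  rw [LinearMap.trace_eq_matrix_trace A b, LinearMap.trace_eq_matrix_trace A b,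
    ← LinearMap.det_toMatrix b, ← LinearMap.toMatrix_pow b f, trace_pow_matrix]

theorem charpoly_eq (hV : Module.finrank A V = 2) (f : Module.End A V) :
    LinearMap.charpoly f = X ^ 2 - C (LinearMap.trace A V f) * X + C (LinearMap.det f) := by
  let b := basis2 hV
  rw [← LinearMap.charpoly_toMatrix f b, Matrix.charpoly_fin_two,
    LinearMap.trace_eq_matrix_trace A b, LinearMap.det_toMatrix]

theorem trace_det_of_charpoly_eq (hV : Module.finrank A V = 2) (f : Module.End A V) {t d : A}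
    (h : LinearMap.charpoly f = X ^ 2 - C t * X + C d) :
    LinearMap.trace A V f = t ∧ LinearMap.det f = d := by
  rw [charpoly_eq hV] at h
  have h0 := congrArg (fun p => Polynomial.coeff p 0) h
  have h1 := congrArg (fun p => Polynomial.coeff p 1) h
  simp only [coeff_add, coeff_sub, coeff_X_pow, coeff_C_mul, coeff_X, coeff_C] at h0 h1
  norm_num at h0 h1
  exact ⟨h1, h0⟩

theorem trace_det_congr {W : Type*} [AddCommGroup W] [Module A W] [Module.Free A W]
    [Module.Finite A W] (hV : Module.finrank A V = 2) (hW : Module.finrank A W = 2)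
    {f : Module.End A V} {g : Module.End A W} (h : LinearMap.charpoly f = LinearMap.charpoly g) :
    LinearMap.trace A V f = LinearMap.trace A W g ∧ LinearMap.det f = LinearMap.det g := by
  rw [charpoly_eq hW] at h
  exact trace_det_of_charpoly_eq hV f h

end RankTwo

section Congr

variable {A : Type*} [CommRing A] [Nontrivial A] {V : Type*} [AddCommGroup V] [Module A V]
  [Module.Free A V] [Module.Finite A V]

theorem repr_mem_of_mem_smul_top {ι : Type*} [Finite ι] (b : Module.Basis ι A V) {I : Ideal A} {v : V}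
    (hv : v ∈ I • (⊤ : Submodule A V)) (i : ι) : b.repr v i ∈ I := by
  refine Submodule.smul_induction_on hv (fun a ha w _ => ?_) (fun x y hx hy => ?_)
  · rw [map_smul, Finsupp.smul_apply, smul_eq_mul]
    exact I.mul_mem_right _ ha
  · rw [map_add, Finsupp.add_apply]
    exact I.add_mem hx hy

theorem toMatrix_map_eq {ι : Type*} [Fintype ι] [DecidableEq ι] (b : Module.Basis ι A V)
    {I : Ideal A} {f g : Module.End A V}
    (h : ∀ v, f v - g v ∈ I • (⊤ : Submodule A V)) :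
    (LinearMap.toMatrix b b f).map (Ideal.Quotient.mk I) =
      (LinearMap.toMatrix b b g).map (Ideal.Quotient.mk I) := by
  ext i j
  rw [Matrix.map_apply, Matrix.map_apply, Ideal.Quotient.eq, LinearMap.toMatrix_apply,
    LinearMap.toMatrix_apply, ← Finsupp.sub_apply, ← map_sub]
  exact repr_mem_of_mem_smul_top b (h (b j)) i

theorem trace_sub_mem {I : Ideal A} {f g : Module.End A V}
    (h : ∀ v, f v - g v ∈ I • (⊤ : Submodule A V)) :
    LinearMap.trace A V f - LinearMap.trace A V g ∈ I := by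
  classical
  let b := Module.Free.chooseBasis A V
  have h1 := toMatrix_map_eq b h
  rw [← Ideal.Quotient.eq, LinearMap.trace_eq_matrix_trace A b, LinearMap.trace_eq_matrix_trace A b]
  have h2 := congrArg Matrix.trace h1
  simpa [Matrix.trace, Matrix.diag, map_sum] using h2

theorem det_sub_mem {I : Ideal A} {f g : Module.End A V}
    (h : ∀ v, f v - g v ∈ I • (⊤ : Submodule A V)) :
    LinearMap.det f - LinearMap.det g ∈ I := by
  classical
  let b := Module.Free.chooseBasis A V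
  have h1 := toMatrix_map_eq b h
  rw [← Ideal.Quotient.eq, ← LinearMap.det_toMatrix b, ← LinearMap.det_toMatrix b,
    RingHom.map_det, RingHom.map_det]
  exact congrArg Matrix.det h1

end Congr

section Adic

variable {A : Type} [CommRing A] [IsLocalRing A]

/-- Frobenius density for an adic representation and an additional finite extension: for each `n`
and `σ` there are a Frobenius `φ` at a prime outside `S` and an exponent `k`, with
`ρ σ ≡ ρ φ ^ k mod 𝔪 ^ n`, and `σ = φ ^ k` on `F`. -/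
theorem exists_frobenius_adic (ρ : GaloisRepAdic A) (F : IntermediateField ℚ Qbar)
    [hF : FiniteDimensional ℚ F] (σ : Γℚ) (S : Finset ℕ) (n : ℕ) :
    ∃ ℓ : ℕ, ℓ.Prime ∧ ℓ ∉ S ∧
      ∃ P : ValuationSubring Qbar, P.LiesOverPrime ℓ ∧
        ∃ φ : Γℚ, P.IsFrobeniusAt φ ℓ ∧ ∃ k : ℕ,
          (∀ v : ρ.V, ρ.ρ σ v - (ρ.ρ φ ^ k) v ∈
            (IsLocalRing.maximalIdeal A ^ n) • (⊤ : Submodule A ρ.V)) ∧
          (∀ x ∈ F, σ x = (φ ^ k) x) := by
  obtain ⟨L, hL, hL'⟩ := ρ.isAdicContinuous n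
  haveI := hL
  haveI : FiniteDimensional ℚ (L ⊔ F : IntermediateField ℚ Qbar) :=
    IntermediateField.finiteDimensional_sup L F
  obtain ⟨ℓ, hℓ, hS, -, P, hP, φ, hφ, ⟨k, hk⟩, -⟩ := exists_frobenius (L ⊔ F) σ S
  refine ⟨ℓ, hℓ, hS, P, hP, φ, hφ, k, fun v => ?_, fun x hx => hk x ((le_sup_right : F ≤ L ⊔ F) hx)⟩
  have h1 := hL' ((φ ^ k)⁻¹ * σ) (fun x hx => by
    change (φ ^ k)⁻¹ (σ x) = x
    rw [hk x ((le_sup_left : L ≤ L ⊔ F) hx)]
    exact inv_smul_smul (φ ^ k) x) v
  have h2 : ρ.ρ σ v - (ρ.ρ φ ^ k) v = (ρ.ρ φ ^ k) (ρ.ρ ((φ ^ k)⁻¹ * σ) v - v) := by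
    rw [map_sub, ← map_pow, ← Module.End.mul_apply, ← map_mul]
    congr 3
    group
  rw [h2]
  have h3 : (IsLocalRing.maximalIdeal A ^ n • (⊤ : Submodule A ρ.V)).map (ρ.ρ φ ^ k) ≤
      IsLocalRing.maximalIdeal A ^ n • (⊤ : Submodule A ρ.V) := by
    rw [Submodule.map_smul'']
    exact Submodule.smul_mono le_rfl le_top
  exact h3 (Submodule.mem_map_of_mem h1)

/-- The char polys of Frobenii outside `S` determine traces and determinants modulo `𝔪 ^ n`. -/
theorem trace_det_sub_mem (ρ₁ ρ₂ : GaloisRepAdic A) (S : Finset ℕ)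
    (h : ∀ ℓ : ℕ, ℓ.Prime → ℓ ∉ S → ∀ P : ValuationSubring Qbar, P.LiesOverPrime ℓ →
      ∀ φ : Γℚ, P.IsFrobeniusAt φ ℓ → LinearMap.charpoly (ρ₁.ρ φ) = LinearMap.charpoly (ρ₂.ρ φ))
    (σ : Γℚ) (n : ℕ) :
    LinearMap.trace A ρ₁.V (ρ₁.ρ σ) - LinearMap.trace A ρ₂.V (ρ₂.ρ σ) ∈
        IsLocalRing.maximalIdeal A ^ n ∧
      LinearMap.det (ρ₁.ρ σ) - LinearMap.det (ρ₂.ρ σ) ∈ IsLocalRing.maximalIdeal A ^ n := by
  obtain ⟨L, hL, hL'⟩ := ρ₂.isAdicContinuous n
  haveI := hL
  obtain ⟨ℓ, hℓ, hS, P, hP, φ, hφ, k, h1, hk⟩ := exists_frobenius_adic ρ₁ L σ S n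
  have h2 : ∀ v : ρ₂.V, ρ₂.ρ σ v - (ρ₂.ρ φ ^ k) v ∈
      (IsLocalRing.maximalIdeal A ^ n) • (⊤ : Submodule A ρ₂.V) := by
    intro v
    have h1 := hL' ((φ ^ k)⁻¹ * σ) (fun x hx => by
      change (φ ^ k)⁻¹ (σ x) = x
      rw [hk x hx]
      exact inv_smul_smul (φ ^ k) x) v
    have h2 : ρ₂.ρ σ v - (ρ₂.ρ φ ^ k) v = (ρ₂.ρ φ ^ k) (ρ₂.ρ ((φ ^ k)⁻¹ * σ) v - v) := by
      rw [map_sub, ← map_pow, ← Module.End.mul_apply, ← map_mul]
      congr 3
      group
    rw [h2]
    have h3 : (IsLocalRing.maximalIdeal A ^ n • (⊤ : Submodule A ρ₂.V)).map (ρ₂.ρ φ ^ k) ≤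
        IsLocalRing.maximalIdeal A ^ n • (⊤ : Submodule A ρ₂.V) := by
      rw [Submodule.map_smul'']
      exact Submodule.smul_mono le_rfl le_top
    exact h3 (Submodule.mem_map_of_mem h1)
  obtain ⟨ht, hd⟩ := trace_det_congr ρ₁.finrank_eq ρ₂.finrank_eq (h ℓ hℓ hS P hP φ hφ)
  have htk : LinearMap.trace A ρ₁.V (ρ₁.ρ φ ^ k) = LinearMap.trace A ρ₂.V (ρ₂.ρ φ ^ k) := by
    rw [trace_pow_end ρ₁.finrank_eq, trace_pow_end ρ₂.finrank_eq, ht, hd]
  have hdk : LinearMap.det (ρ₁.ρ φ ^ k) = LinearMap.det (ρ₂.ρ φ ^ k) := by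
    rw [map_pow, map_pow, hd]
  constructor
  · have e1 := trace_sub_mem h1
    have e2 := trace_sub_mem h2
    rw [htk] at e1
    have := Ideal.sub_mem _ e1 e2
    rwa [sub_sub_sub_cancel_right] at this
  · have e1 := det_sub_mem h1
    have e2 := det_sub_mem h2
    rw [hdk] at e1
    have := Ideal.sub_mem _ e1 e2
    rwa [sub_sub_sub_cancel_right] at this

theorem eq_of_forall_sub_mem [IsHausdorff (IsLocalRing.maximalIdeal A) A] {a b : A}
    (h : ∀ n : ℕ, a - b ∈ IsLocalRing.maximalIdeal A ^ n) : a = b := by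
  rw [← sub_eq_zero]
  apply IsHausdorff.haus (I := IsLocalRing.maximalIdeal A) inferInstance
  intro n
  rw [SModEq.zero, smul_eq_mul, Ideal.mul_top]
  exact h n

/-- **Corollary of Frobenius density**: if the characteristic polynomials of Frobenius elements
outside a finite set agree, then all characteristic polynomials agree. -/
theorem charpoly_eq_of_frobenius [IsHausdorff (IsLocalRing.maximalIdeal A) A]
    (ρ₁ ρ₂ : GaloisRepAdic A) (S : Finset ℕ)
    (h : ∀ ℓ : ℕ, ℓ.Prime → ℓ ∉ S → ∀ P : ValuationSubring Qbar, P.LiesOverPrime ℓ →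
      ∀ φ : Γℚ, P.IsFrobeniusAt φ ℓ → LinearMap.charpoly (ρ₁.ρ φ) = LinearMap.charpoly (ρ₂.ρ φ))
    (σ : Γℚ) : LinearMap.charpoly (ρ₁.ρ σ) = LinearMap.charpoly (ρ₂.ρ σ) := by
  rw [charpoly_eq ρ₁.finrank_eq, charpoly_eq ρ₂.finrank_eq,
    eq_of_forall_sub_mem fun n => (trace_det_sub_mem ρ₁ ρ₂ S h σ n).1,
    eq_of_forall_sub_mem fun n => (trace_det_sub_mem ρ₁ ρ₂ S h σ n).2]

/-- Residual version. -/
theorem residual_charpoly_eq_of_frobenius {k : Type} [Field k]
    (ρ₁ ρ₂ : ResidualGaloisRep k) (S : Finset ℕ)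
    (h : ∀ ℓ : ℕ, ℓ.Prime → ℓ ∉ S → ∀ P : ValuationSubring Qbar, P.LiesOverPrime ℓ →
      ∀ φ : Γℚ, P.IsFrobeniusAt φ ℓ → LinearMap.charpoly (ρ₁.ρ φ) = LinearMap.charpoly (ρ₂.ρ φ))
    (σ : Γℚ) : LinearMap.charpoly (ρ₁.ρ σ) = LinearMap.charpoly (ρ₂.ρ σ) := by
  have hbot : IsLocalRing.maximalIdeal k = ⊥ :=
    (Ideal.eq_bot_or_top _).resolve_right (Ideal.IsMaximal.ne_top inferInstance)
  haveI : IsHausdorff (IsLocalRing.maximalIdeal k) k := by
    rw [hbot]; infer_instance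
  exact charpoly_eq_of_frobenius (GaloisRepAdic.ofResidualGaloisRep ρ₁)
    (GaloisRepAdic.ofResidualGaloisRep ρ₂) S h σ

end Adic

end Fermat.Agent.Cheb
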