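import Fermat.Agent.Cheb.Algebraic
import Fermat.Agent.Cheb.Analytic

set_option linter.unusedSectionVars false
set_option linter.unusedVariables false
set_option linter.style.haveILetI false

open Ideal Pointwise NumberField

namespace Fermat.Agent.Cheb

/-- functions bounded on `(1,2]` -/
def BddNear (f : ℝ → ℝ) : Prop := ∃ C : ℝ, ∀ s : ℝ, 1 < s → s ≤ 2 → |f s| ≤ C

theorem BddNear.congr {f g : ℝ → ℝ} (hf : BddNear f) (h : ∀ s : ℝ, 1 < s → s ≤ 2 → g s = f s) :
    BddNear g := by
  obtain ⟨C, hC⟩ := hf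
  exact ⟨C, fun s h1 h2 => by rw [h s h1 h2]; exact hC s h1 h2⟩

theorem BddNear.add {f g : ℝ → ℝ} (hf : BddNear f) (hg : BddNear g) :
    BddNear (fun s => f s + g s) := by
  obtain ⟨C, hC⟩ := hf
  obtain ⟨C', hC'⟩ := hg
  exact ⟨C + C', fun s h1 h2 => (abs_add_le _ _).trans (add_le_add (hC s h1 h2) (hC' s h1 h2))⟩

theorem BddNear.const_mul {f : ℝ → ℝ} (c : ℝ) (hf : BddNear f) :
    BddNear (fun s => c * f s) := by
  obtain ⟨C, hC⟩ := hf
  exact ⟨|c| * C, fun s h1 h2 => by
    rw [abs_mul]; exact mul_le_mul_of_nonneg_left (hC s h1 h2) (abs_nonneg c)⟩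

theorem BddNear.sub {f g : ℝ → ℝ} (hf : BddNear f) (hg : BddNear g) :
    BddNear (fun s => f s - g s) :=
  (hf.add (hg.const_mul (-1))).congr (fun s _ _ => by ring)

theorem BddNear.sum {ι : Type*} (t : Finset ι) {f : ι → ℝ → ℝ} (hf : ∀ i ∈ t, BddNear (f i)) :
    BddNear (fun s => ∑ i ∈ t, f i s) := by
  classical
  induction t using Finset.induction_on with
  | empty => exact ⟨0, fun s _ _ => by simp⟩
  | insert a t ha ih =>
    have h1 := (hf a (Finset.mem_insert_self a t)).add
      (ih fun i hi => hf i (Finset.mem_insert_of_mem hi))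
    exact h1.congr fun s _ _ => by rw [Finset.sum_insert ha]

/-- A Dirichlet series over primes with finite support and is bounded. -/
theorem bddNear_of_finite (f : Nat.Primes → ℝ) (F : Finset Nat.Primes) (hF : ∀ p, p ∉ F → f p = 0) :
    BddNear (fun s => ∑' p : Nat.Primes, f p * ((p : ℕ) : ℝ) ^ (-s)) := by
  refine ⟨∑ p ∈ F, |f p|, fun s h1 h2 => ?_⟩
  beta_reduce
  rw [tsum_eq_sum (s := F) (fun p hp => by rw [hF p hp, zero_mul])]
  refine (Finset.abs_sum_le_sum_abs _ _).trans (Finset.sum_le_sum fun p _ => ?_)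
  rw [abs_mul]
  have hp : (1 : ℝ) ≤ ((p : ℕ) : ℝ) := by exact_mod_cast p.2.one_lt.le
  have h3 : |((p : ℕ) : ℝ) ^ (-s)| ≤ 1 := by
    rw [abs_of_nonneg (by positivity)]
    exact Real.rpow_le_one_of_one_le_of_nonpos hp (by linarith)
  calc |f p| * |((p : ℕ) : ℝ) ^ (-s)| ≤ |f p| * 1 := mul_le_mul_of_nonneg_left h3 (abs_nonneg _)
    _ = |f p| := mul_one _

theorem not_bddNear_log : ¬ BddNear (fun s => Real.log (1 / (s - 1))) := by
  rintro ⟨C, hC⟩
  have h0 : 0 ≤ C := (abs_nonneg _).trans (hC 2 (by norm_num) le_rfl)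
  have h1 := hC (1 + Real.exp (-(C + 1))) (by linarith [Real.exp_pos (-(C + 1))])
    (by
      have : Real.exp (-(C + 1)) ≤ 1 := by
        rw [Real.exp_le_one_iff]; linarith
      linarith)
  beta_reduce at h1
  have h2 : (1 + Real.exp (-(C + 1)) - 1) = Real.exp (-(C + 1)) := by ring
  rw [h2, one_div, Real.log_inv, Real.log_exp, neg_neg, abs_of_nonneg (by linarith)] at h1
  linarith

section

variable (L : Type*) [Field L] [NumberField L]

theorem finite_primesAbove (p : Nat.Primes) :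
    {P : Ideal (𝓞 L) | P.IsPrime ∧ ((p : ℕ) : 𝓞 L) ∈ P}.Finite := by
  haveI := Fact.mk p.2
  haveI : (Ideal.span {((p : ℕ) : ℤ)}).IsMaximal := Int.ideal_span_isMaximal_of_prime p
  refine (IsDedekindDomain.primesOver_finite (Ideal.span {((p : ℕ) : ℤ)}) (𝓞 L)).subset ?_
  rintro P ⟨hP, hpP⟩
  exact ⟨hP, ⟨(under_int hpP).symm⟩⟩

noncomputable def primesAbove (p : Nat.Primes) : Finset (Ideal (𝓞 L)) :=
  (finite_primesAbove L p).toFinset

theorem mem_primesAbove (p : Nat.Primes) (P : Ideal (𝓞 L)) :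
    P ∈ primesAbove L p ↔ P.IsPrime ∧ ((p : ℕ) : 𝓞 L) ∈ P := by
  simp [primesAbove]

open Classical in
noncomputable def frobOf {L : Type*} [Field L] [NumberField L] (P : Ideal (𝓞 L)) : Gal(L/ℚ) :=
  if h : ∃ F : Gal(L/ℚ), IsArithFrobAt ℤ F P then h.choose else 1

theorem isArithFrobAt_frobOf [IsGalois ℚ L] {p : Nat.Primes} {P : Ideal (𝓞 L)}
    (hP : P ∈ primesAbove L p) : IsArithFrobAt ℤ (frobOf P) P := by
  rw [mem_primesAbove] at hP
  haveI := hP.1
  haveI := finite_quotient_of_natCast_mem p.2.ne_zero hP.2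
  have h : ∃ F : Gal(L/ℚ), IsArithFrobAt ℤ F P := IsArithFrobAt.exists_of_isInvariant ℤ Gal(L/ℚ) P
  rw [frobOf, dif_pos h]
  exact h.choose_spec

open Classical in
noncomputable def weight {L : Type*} [Field L] [NumberField L] (C : Subgroup Gal(L/ℚ))
    (p : Nat.Primes) : ℕ :=
  ∑ P ∈ primesAbove L p,
    if Subgroup.zpowers (frobOf P) = C then Nat.card (MulAction.stabilizer Gal(L/ℚ) P) else 0

/-- number of ideals of norm `p` in the fixed field of `H` -/
noncomputable def cnt {L : Type*} [Field L] [NumberField L] (H : Subgroup Gal(L/ℚ))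
    (p : Nat.Primes) : ℕ :=
  Nat.card {I : Ideal (𝓞 (FixedPoints.intermediateField H : IntermediateField ℚ L)) //
    absNorm I = (p : ℕ)}

open Classical in
theorem card_mul_cnt [IsGalois ℚ L] {p : Nat.Primes}
    (hI : ∀ P : Ideal (𝓞 L), P.IsPrime → ((p : ℕ) : 𝓞 L) ∈ P → P.inertia Gal(L/ℚ) = ⊥)
    (H : Subgroup Gal(L/ℚ)) :
    Nat.card H * cnt H p = ∑ C : Subgroup Gal(L/ℚ) with C ≤ H, weight C p := by
  haveI := Fact.mk p.2
  rw [cnt, card_mul_card_ideals (K := (FixedPoints.intermediateField H : IntermediateField ℚ L))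
    H p (primesAbove L p) (mem_primesAbove L p)
    (fun P hP => hI P ((mem_primesAbove L p P).mp hP).1 ((mem_primesAbove L p P).mp hP).2)
    frobOf (fun P hP => isArithFrobAt_frobOf L hP)]
  unfold weight
  rw [Finset.sum_comm]
  refine Finset.sum_congr rfl fun P hP => ?_
  rw [Finset.sum_ite_eq]
  simp only [Finset.mem_filter, Finset.mem_univ, true_and, Subgroup.zpowers_le]

/-- number of generators -/
noncomputable def gen {G : Type*} [Group G] (C : Subgroup G) : ℕ :=
  Nat.card {g : G // Subgroup.zpowers g = C}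

open Classical in
theorem card_eq_sum_gen {G : Type*} [Group G] [Finite G] [Fintype (Subgroup G)] (H : Subgroup G) :
    Nat.card H = ∑ C : Subgroup G with C ≤ H, gen C := by
  haveI := Fintype.ofFinite G
  have h1 : Nat.card H = (Finset.univ.filter (fun g : G => g ∈ H)).card := by
    rw [Nat.card_eq_fintype_card]
    exact Fintype.card_subtype _
  rw [h1, Finset.card_eq_sum_card_fiberwise (f := fun g => Subgroup.zpowers g)
    (t := Finset.univ.filter (fun C : Subgroup G => C ≤ H))]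
  · refine Finset.sum_congr rfl fun C hC => ?_
    rw [Finset.mem_filter] at hC
    rw [gen, Nat.card_eq_fintype_card, Fintype.card_subtype]
    congr 1
    ext g
    simp only [Finset.mem_filter, Finset.mem_univ, true_and]
    constructor
    · rintro ⟨_, h⟩; exact h
    · intro h
      exact ⟨hC.2 (h ▸ Subgroup.mem_zpowers g), h⟩
  · intro g hg
    simp only [Finset.coe_filter, Finset.mem_univ, true_and, Set.mem_ofPred_eq] at hg ⊢
    rwa [Subgroup.zpowers_le]

variable [IsGalois ℚ L]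

section Series

variable {L}
variable {D : ℕ} (hD : D ≠ 0) (hgood : ∀ p : ℕ, p.Prime → ¬ p ∣ D → ∀ P : Ideal (𝓞 L), P.IsPrime →
  (p : 𝓞 L) ∈ P → P.inertia Gal(L/ℚ) = ⊥)

open Classical in
/-- the weight function restricted to good primes -/
noncomputable def gwt (D : ℕ) (C : Subgroup Gal(L/ℚ)) (p : Nat.Primes) : ℝ :=
  if (p : ℕ) ∣ D then 0 else (weight C p : ℝ)

theorem gwt_nonneg (D : ℕ) (C : Subgroup Gal(L/ℚ)) (p : Nat.Primes) : 0 ≤ gwt D C p := by
  unfold gwt
  split_ifs <;> positivity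

include hgood in
open Classical in
theorem sum_gwt (H : Subgroup Gal(L/ℚ)) (p : Nat.Primes) (hp : ¬ (p : ℕ) ∣ D) :
    (Nat.card H : ℝ) * cnt H p = ∑ C : Subgroup Gal(L/ℚ) with C ≤ H, gwt D C p := by
  have h1 := card_mul_cnt L (p := p) (hgood p p.2 hp) H
  have h2 : ((Nat.card H * cnt H p : ℕ) : ℝ) =
      ((∑ C : Subgroup Gal(L/ℚ) with C ≤ H, weight C p : ℕ) : ℝ) := by rw [h1]
  rw [Nat.cast_mul, Nat.cast_sum] at h2
  rw [h2]
  refine Finset.sum_congr rfl fun C _ => ?_
  rw [gwt, if_neg hp]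

include hgood in
theorem gwt_le (H : Subgroup Gal(L/ℚ)) (p : Nat.Primes) :
    gwt D H p ≤ (Nat.card H : ℝ) * cnt H p := by
  classical
  by_cases hp : (p : ℕ) ∣ D
  · rw [gwt, if_pos hp]; positivity
  · rw [sum_gwt hgood H p hp]
    exact Finset.single_le_sum (f := fun C => gwt D C p) (fun C _ => gwt_nonneg D C p)
      (by simp)

theorem summable_cnt (H : Subgroup Gal(L/ℚ)) {s : ℝ} (hs : 1 < s) :
    Summable fun p : Nat.Primes => (cnt H p : ℝ) * ((p : ℕ) : ℝ) ^ (-s) :=
  summable_idealCount_primes _ hs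

include hgood in
theorem summable_gwt (H : Subgroup Gal(L/ℚ)) {s : ℝ} (hs : 1 < s) :
    Summable fun p : Nat.Primes => gwt D H p * ((p : ℕ) : ℝ) ^ (-s) := by
  refine Summable.of_nonneg_of_le (fun p => mul_nonneg (gwt_nonneg D H p) (by positivity))
    (fun p => ?_) ((summable_cnt H hs).mul_left (Nat.card H : ℝ))
  rw [← mul_assoc]
  exact mul_le_mul_of_nonneg_right (gwt_le hgood H p) (by positivity)

/-- the Dirichlet series attached to a subgroup. -/
noncomputable def M (D : ℕ) (H : Subgroup Gal(L/ℚ)) (s : ℝ) : ℝ :=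
  ∑' p : Nat.Primes, gwt D H p * ((p : ℕ) : ℝ) ^ (-s)

include hD hgood in
open Classical in
theorem bddNear_sum_M (H : Subgroup Gal(L/ℚ)) :
    BddNear (fun s => ∑ C : Subgroup Gal(L/ℚ) with C ≤ H, M D C s -
      (Nat.card H : ℝ) * Real.log (1 / (s - 1))) := by
  -- the finite set of bad primes
  have hbadfin : {p : Nat.Primes | (p : ℕ) ∣ D}.Finite := by
    have h1 : (Nat.divisors D : Set ℕ).Finite := Finset.finite_toSet _
    refine Set.Finite.of_finite_image (f := fun p : Nat.Primes => (p : ℕ)) (h1.subset ?_)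
      Nat.Primes.coe_nat_injective.injOn
    rintro _ ⟨p, hp, rfl⟩
    rw [Finset.mem_coe, Nat.mem_divisors]
    exact ⟨hp, hD⟩
  let e : Nat.Primes → ℝ := fun p => if (p : ℕ) ∣ D then (Nat.card H : ℝ) * cnt H p else 0
  have he : BddNear (fun s => ∑' p : Nat.Primes, e p * ((p : ℕ) : ℝ) ^ (-s)) := by
    apply bddNear_of_finite e hbadfin.toFinset
    intro p hp
    simp only [Set.Finite.mem_toFinset, Set.mem_ofPred_eq] at hp
    simp [e, hp]
  obtain ⟨C0, hC0⟩ := exists_bound_degreeOne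
    (FixedPoints.intermediateField H : IntermediateField ℚ L)
  have hb : BddNear (fun s => ∑' p : Nat.Primes, (cnt H p : ℝ) * ((p : ℕ) : ℝ) ^ (-s) -
      Real.log (1 / (s - 1))) := ⟨C0, hC0⟩
  refine ((hb.const_mul (Nat.card H : ℝ)).sub he).congr fun s h1 h2 => ?_
  have hsume : Summable fun p : Nat.Primes => e p * ((p : ℕ) : ℝ) ^ (-s) := by
    refine Summable.of_nonneg_of_le (fun p => ?_) (fun p => ?_)
      ((summable_cnt H h1).mul_left (Nat.card H : ℝ))
    · apply mul_nonneg _ (by positivity)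
      simp only [e]; split_ifs <;> positivity
    · rw [← mul_assoc]
      apply mul_le_mul_of_nonneg_right _ (by positivity)
      simp only [e]; split_ifs
      · exact le_rfl
      · positivity
  have hM : ∑ C : Subgroup Gal(L/ℚ) with C ≤ H, M D C s =
      ∑' p : Nat.Primes, ((Nat.card H : ℝ) * ((cnt H p : ℝ) * ((p : ℕ) : ℝ) ^ (-s)) -
        e p * ((p : ℕ) : ℝ) ^ (-s)) := by
    unfold M
    rw [← Summable.tsum_finsetSum (fun C _ => summable_gwt hgood C h1)]
    refine tsum_congr fun p => ?_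
    rw [← Finset.sum_mul]
    by_cases hp : (p : ℕ) ∣ D
    · have h3 : ∀ C : Subgroup Gal(L/ℚ), gwt D C p = 0 := fun C => by rw [gwt, if_pos hp]
      simp only [h3, Finset.sum_const_zero, zero_mul, e, if_pos hp]
      ring
    · rw [← sum_gwt hgood H p hp]
      simp only [e, if_neg hp]
      ring
  rw [hM, Summable.tsum_sub ((summable_cnt H h1).mul_left _) hsume, tsum_mul_left]
  ring

include hD hgood in
/-- **Frobenius density**, logarithmic form. -/
theorem bddNear_M (H : Subgroup Gal(L/ℚ)) :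
    BddNear (fun s => M D H s - (gen H : ℝ) * Real.log (1 / (s - 1))) := by
  classical
  induction H using WellFoundedLT.induction with
  | ind H ih =>
    have h1 := bddNear_sum_M hD hgood H
    have h2 : BddNear (fun s => ∑ C : Subgroup Gal(L/ℚ) with C < H,
        (M D C s - (gen C : ℝ) * Real.log (1 / (s - 1)))) := by
      apply BddNear.sum
      intro C hC
      rw [Finset.mem_filter] at hC
      exact ih C hC.2
    refine (h1.sub h2).congr fun s _ _ => ?_
    have h3 : (Finset.univ.filter fun C : Subgroup Gal(L/ℚ) => C ≤ H) =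
        insert H (Finset.univ.filter fun C : Subgroup Gal(L/ℚ) => C < H) := by
      ext C
      simp [le_iff_eq_or_lt]
    have h4 : H ∉ (Finset.univ.filter fun C : Subgroup Gal(L/ℚ) => C < H) := by simp
    have h5 := card_eq_sum_gen H
    rw [h3, Finset.sum_insert h4] at h5
    rw [h3, Finset.sum_insert h4, h5, Finset.sum_sub_distrib, ← Finset.sum_mul]
    push_cast
    ring

end Series

/-- **Frobenius density theorem**, infinitude form. For every `σ ∈ Gal(L/ℚ)` and every bound `N` there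
is a prime `p > N`, unramified in `L` (all inertia groups trivial), a prime `P ∣ p` of `L` and a
Frobenius element `F` at `P` generating the same cyclic subgroup as `σ`. -/
theorem exists_prime_frob (σ : Gal(L/ℚ)) (N : ℕ) :
    ∃ p : ℕ, p.Prime ∧ N < p ∧
      (∀ P : Ideal (𝓞 L), P.IsPrime → (p : 𝓞 L) ∈ P → P.inertia Gal(L/ℚ) = ⊥) ∧
      ∃ P : Ideal (𝓞 L), P.IsPrime ∧ (p : 𝓞 L) ∈ P ∧
        ∃ F : Gal(L/ℚ), IsArithFrobAt ℤ F P ∧ Subgroup.zpowers F = Subgroup.zpowers σ := by
  classical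
  obtain ⟨D, hD, hgood⟩ := exists_good L
  by_contra hcon
  have hzero : ∀ p : Nat.Primes, N < (p : ℕ) → gwt D (Subgroup.zpowers σ) p = 0 := by
    intro p hp
    by_cases hpD : (p : ℕ) ∣ D
    · rw [gwt, if_pos hpD]
    · rw [gwt, if_neg hpD, Nat.cast_eq_zero, weight]
      refine Finset.sum_eq_zero fun P hP => ?_
      rw [if_neg]
      intro hz
      exact hcon ⟨p, p.2, hp, hgood p p.2 hpD, P, ((mem_primesAbove L p P).mp hP).1,
        ((mem_primesAbove L p P).mp hP).2, frobOf P, isArithFrobAt_frobOf L hP, hz⟩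
  have hfin : {p : Nat.Primes | (p : ℕ) ≤ N}.Finite := by
    refine Set.Finite.of_finite_image (f := fun p : Nat.Primes => (p : ℕ))
      ((Set.finite_Iic N).subset ?_) Nat.Primes.coe_nat_injective.injOn
    rintro _ ⟨p, hp, rfl⟩
    exact hp
  have hM : BddNear (M D (Subgroup.zpowers σ)) := by
    apply bddNear_of_finite _ hfin.toFinset
    intro p hp
    simp only [Set.Finite.mem_toFinset, Set.mem_ofPred_eq, not_le] at hp
    exact hzero p hp
  have h1 := hM.sub (bddNear_M hD hgood (Subgroup.zpowers σ))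
  have hgen : (gen (Subgroup.zpowers σ) : ℝ) ≠ 0 := by
    rw [Nat.cast_ne_zero, gen]
    haveI : Nonempty {g : Gal(L/ℚ) // Subgroup.zpowers g = Subgroup.zpowers σ} := ⟨⟨σ, rfl⟩⟩
    exact Nat.card_pos.ne'
  apply not_bddNear_log
  refine (h1.const_mul (gen (Subgroup.zpowers σ) : ℝ)⁻¹).congr fun s _ _ => ?_
  field_simp
  ring

end

end Fermat.Agent.Cheb
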