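import Fermat.Agent.Cheb.Charpoly

set_option linter.unusedSectionVars false
set_option linter.unusedVariables false
set_option linter.style.haveILetI false

open Ideal Pointwise NumberField Polynomial

namespace Fermat.Agent.Cheb

local notation "Qbar" => AlgebraicClosure ℚ
local notation "Γℚ" => (AlgebraicClosure ℚ ≃ₐ[ℚ] AlgebraicClosure ℚ)

open Fermat.Agent.Frob

/-- A Frobenius at `ℓ` raises roots of unity of order prime to `ℓ` to the `ℓ`-th power. -/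
theorem frob_rootOfUnity {P : ValuationSubring Qbar} {ℓ : ℕ} (hℓ : ℓ.Prime)
    (hP : P.LiesOverPrime ℓ) {φ : Γℚ} (hφ : P.IsFrobeniusAt φ ℓ) {m : ℕ} (hm : ¬ ℓ ∣ m)
    {ζ : Qbar} (hζ : ζ ^ m = 1) : φ ζ = ζ ^ ℓ := by
  haveI := Fact.mk hℓ
  have hm0 : m ≠ 0 := by rintro rfl; exact hm (dvd_zero ℓ)
  have hint : IsIntegral ℤ ζ := by
    refine ⟨X ^ m - 1, monic_X_pow_sub_C 1 hm0, ?_⟩
    simp [hζ]
  let z : integralClosure ℤ Qbar := ⟨ζ, hint⟩
  have hcard : Nat.card (ℤ ⧸ (primeBelow P).under ℤ) = ℓ :=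
    card_quot_under_int (natCast_mem_primeBelow hP)
  have hF : IsArithFrobAt ℤ φ (primeBelow P) := by
    intro x
    rw [hcard, mem_primeBelow_iff]
    exact ((isFrobeniusAt_iff P φ ℓ).mp hφ).2 (x : Qbar) (mem_of_isIntegral P x.2)
  have h1 := AlgHom.IsArithFrobAt.apply_of_pow_eq_one hF (ζ := z) (m := m) (Subtype.ext hζ) (by
    intro h
    have h2 : ((m : ℤ) : ℤ) ∈ (primeBelow P).under ℤ := by
      rw [Ideal.mem_comap]
      simpa using h
    rw [under_int (natCast_mem_primeBelow hP), Ideal.mem_span_singleton] at h2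
    exact hm (by exact_mod_cast h2))
  rw [hcard] at h1
  exact congrArg Subtype.val h1

/-- Elements of a Noetherian local ring lying in `I + 𝔪 ^ m` for all `m` lie in `I`. -/
theorem mem_of_forall_mem_sup {A : Type*} [CommRing A] [IsLocalRing A] [IsNoetherianRing A]
    (I : Ideal A) {a : A} (h : ∀ m : ℕ, a ∈ I ⊔ IsLocalRing.maximalIdeal A ^ m) : a ∈ I := by
  by_cases hI : I = ⊤
  · rw [hI]; trivial
  haveI : Nontrivial (A ⧸ I) := Ideal.Quotient.nontrivial_iff.mpr hI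
  haveI : IsLocalRing (A ⧸ I) := IsLocalRing.of_surjective' (Ideal.Quotient.mk I)
    Ideal.Quotient.mk_surjective
  haveI : IsLocalHom (Ideal.Quotient.mk I) :=
    IsLocalHom.of_surjective (Ideal.Quotient.mk I) Ideal.Quotient.mk_surjective
  rw [← Ideal.Quotient.eq_zero_iff_mem]
  have h1 : Ideal.Quotient.mk I a ∈ ⨅ m : ℕ, IsLocalRing.maximalIdeal (A ⧸ I) ^ m := by
    rw [Ideal.mem_iInf]
    intro m
    obtain ⟨x, hx, y, hy, hxy⟩ := Submodule.mem_sup.mp (h m)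
    rw [← hxy, map_add, Ideal.Quotient.eq_zero_iff_mem.mpr hx, zero_add]
    have h2 : (IsLocalRing.maximalIdeal A ^ m).map (Ideal.Quotient.mk I) ≤
        IsLocalRing.maximalIdeal (A ⧸ I) ^ m := by
      rw [Ideal.map_pow]
      apply Ideal.pow_right_mono
      rw [Ideal.map_le_iff_le_comap]
      exact (IsLocalRing.maximalIdeal_comap (Ideal.Quotient.mk I)).ge
    exact h2 (Ideal.mem_map_of_mem _ hy)
  rw [Ideal.iInf_pow_eq_bot_of_isLocalRing _ (IsLocalRing.maximalIdeal.isMaximal _).ne_top,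
    Ideal.mem_bot] at h1
  exact h1

theorem detIsCyclotomic_of_frobenius {A : Type} [CommRing A] [IsLocalRing A] [IsNoetherianRing A]
    (ρ : GaloisRepAdic A) {p : ℕ} (hp : p.Prime) (hpA : (p : A) ∈ IsLocalRing.maximalIdeal A)
    (S : Finset ℕ)
    (h : ∀ ℓ : ℕ, ℓ.Prime → ℓ ∉ S → ∀ P : ValuationSubring Qbar, P.LiesOverPrime ℓ →
      ∀ φ : Γℚ, P.IsFrobeniusAt φ ℓ → LinearMap.det (ρ.ρ φ) = (ℓ : A)) :
    ρ.DetIsCyclotomic p := by
  classical
  haveI := Fact.mk hp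
  refine ⟨hpA, fun n σ a hσ => ?_⟩
  haveI : NeZero ((p ^ n : ℕ) : Qbar) := ⟨by exact_mod_cast (pow_pos hp.pos n).ne'⟩
  haveI : NeZero (p ^ n) := ⟨(pow_pos hp.pos n).ne'⟩
  obtain ⟨ζ, hζ⟩ := HasEnoughRootsOfUnity.exists_primitiveRoot Qbar (p ^ n)
  let F : IntermediateField ℚ Qbar := IntermediateField.adjoin ℚ {ζ}
  have hζF : ζ ∈ F := IntermediateField.mem_adjoin_simple_self ℚ ζ
  haveI : FiniteDimensional ℚ F :=
    IntermediateField.adjoin.finiteDimensional (Algebra.IsIntegral.isIntegral ζ)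
  apply mem_of_forall_mem_sup
  intro m
  obtain ⟨ℓ, hℓ, hS, P, hP, φ, hφ, k, h1, hk⟩ := exists_frobenius_adic ρ F σ (insert p S) m
  have hℓp : ℓ ≠ p := fun he => hS (he ▸ Finset.mem_insert_self p S)
  have hℓS : ℓ ∉ S := fun he => hS (Finset.mem_insert_of_mem he)
  have hdvd : ¬ ℓ ∣ p ^ n := fun hd => hℓp ((Nat.prime_dvd_prime_iff_eq hℓ hp).mp (hℓ.dvd_of_dvd_pow hd))
  -- the action on `ζ`
  have hφζ : ∀ j : ℕ, (φ ^ j) ζ = ζ ^ (ℓ ^ j) := by
    intro j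
    induction j with
    | zero => simp
    | succ j ih =>
      rw [pow_succ, AlgEquiv.mul_apply, frob_rootOfUnity hℓ hP hφ hdvd hζ.pow_eq_one, map_pow, ih,
        ← pow_mul, ← pow_succ]
  have hζa : ζ ^ a = ζ ^ (ℓ ^ k) := by
    rw [← hσ ζ hζ.pow_eq_one, hk ζ hζF, hφζ]
  have hmod : ((p ^ n : ℕ) : ℤ) ∣ (a : ℤ) - (ℓ ^ k : ℕ) := by
    rw [(hζ.isOfFinOrder (NeZero.ne _)).pow_eq_pow_iff_modEq, ← hζ.eq_orderOf] at hζa
    exact (Nat.modEq_iff_dvd.mp hζa.symm)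
  have e1 := det_sub_mem h1
  rw [map_pow, h ℓ hℓ hℓS P hP φ hφ] at e1
  have e2 : LinearMap.det (ρ.ρ σ) - (a : A) =
      -((a : A) - ((ℓ ^ k : ℕ) : A)) + (LinearMap.det (ρ.ρ σ) - (ℓ : A) ^ k) := by
    push_cast; ring
  rw [e2]
  refine Submodule.add_mem_sup (Ideal.neg_mem_iff _ |>.mpr ?_) e1
  rw [Ideal.mem_span_singleton]
  obtain ⟨c, hc⟩ := hmod
  refine ⟨(c : A), ?_⟩
  have := congrArg (Int.cast : ℤ → A) hc
  push_cast at this ⊢
  exact this

end Fermat.Agent.Cheb
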